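/-
TEAM TW56 -> S56, block [LOCQ] (architect helper88).  File 1: definitions.

OUTPUT = helper55's contracts `TW56.Stmt_LocQ`, `TW56.Stmt_LocUnip`, `TW56.Stmt_LocOrd` (`Top/Asm.lean`):
an additive subgroup of matrix valued functions on the LOCAL Galois group and ONE cardinality bound:
  * `q ∈ Q`        : `#(GW.ZLoc rb q) ≤ #k ^ 4`
  * `v ∈ Smin ∖ p` : `#(LUnip rb v) ≤ #k ^ 3`       (unipotent on inertia)
  * `v = p`        : `#(LOrd rb ℓ (pPrime p)) ≤ #k ^ 4` (strictly ordinary)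

Abstract vocabulary: a group `G` with a level system `𝒰` (`CFT/Top/LC.lean`), raw cocycles
`c : G → M₂(k)` (`Flat.IsCoc0`), `f : G → k` (`Flat.IsCocChar`), `LevK 𝒰 f` = right invariant under a level.
-/
import Fermat.Agent.TW56.Top.Asm
import Fermat.Agent.TW56.Flat.Interface
import Fermat.Agent.TW56.Loc.LecInterface
import Fermat.Agent.TW56.Count.Tame

set_option autoImplicit false

noncomputable section

namespace Fermat.Agent.TW56.LocQ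

open _root_.Fermat.Agent.CFT.Top _root_.Fermat.Agent.CFT.Local ExtCitation
open _root_.Fermat.Agent.S53 (M2)
open _root_.Fermat.Agent.TW56.Flat (IsCoc0 IsCocChar cob)

section Abstract

variable {k : Type} [Field k] {G : Type} [Group G]

/-- `f` is invariant under right translation by a level. -/
def LevK (𝒰 : LevelSys G) {X : Type} (f : G → X) : Prop :=
  ∃ U ∈ 𝒰.S, ∀ g : G, ∀ u ∈ U, f (g * u) = f g

lemma LevK.map₂ {𝒰 : LevelSys G} {X Y Z : Type} {f : G → X} {f' : G → Y} (hf : LevK 𝒰 f)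
    (hf' : LevK 𝒰 f') (F : X → Y → Z) : LevK 𝒰 (fun g => F (f g) (f' g)) := by
  obtain ⟨U, hU, h⟩ := hf
  obtain ⟨V, hV, h'⟩ := hf'
  obtain ⟨W, hW, h1, h2⟩ := 𝒰.dir U hU V hV
  exact ⟨W, hW, fun g u hu => by
    show F (f (g * u)) (f' (g * u)) = F (f g) (f' g)
    rw [h g u (h1 hu), h' g u (h2 hu)]⟩

lemma LevK.map {𝒰 : LevelSys G} {X Y : Type} {f : G → X} (hf : LevK 𝒰 f) (F : X → Y) :
    LevK 𝒰 (fun g => F (f g)) := by
  obtain ⟨U, hU, h⟩ := hf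
  exact ⟨U, hU, fun g u hu => by
    show F (f (g * u)) = F (f g)
    rw [h g u hu]⟩

lemma LevK.const (𝒰 : LevelSys G) {X : Type} (x : X) : LevK 𝒰 (fun _ : G => x) := by
  obtain ⟨U, hU⟩ := 𝒰.ne
  exact ⟨U, hU, fun _ _ _ => rfl⟩

/-- the level constant trace zero cocycles (adjoint action through `r`). -/
def ZA (𝒰 : LevelSys G) (r : G →* M2 k) : AddSubgroup (G → M2 k) where
  carrier := {c | IsCoc0 r c ∧ LevK 𝒰 c}
  add_mem' := by
    rintro c c' ⟨h, hl⟩ ⟨h', hl'⟩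
    refine ⟨⟨fun σ τ => ?_, fun σ => ?_⟩, hl.map₂ hl' (· + ·)⟩
    · simp only [Pi.add_apply, h.coc σ τ, h'.coc σ τ, mul_add, add_mul]
      abel
    · simp only [Pi.add_apply, Matrix.trace_add, h.tr, h'.tr, add_zero]
  zero_mem' := by
    refine ⟨⟨fun σ τ => ?_, fun σ => ?_⟩, LevK.const 𝒰 0⟩
    · simp
    · simp
  neg_mem' := by
    rintro c ⟨h, hl⟩
    refine ⟨⟨fun σ τ => ?_, fun σ => ?_⟩, hl.map (- ·)⟩
    · simp only [Pi.neg_apply, h.coc σ τ, mul_neg, neg_mul, neg_add]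
    · simp only [Pi.neg_apply, Matrix.trace_neg, h.tr, neg_zero]

lemma mem_ZA {𝒰 : LevelSys G} {r : G →* M2 k} {c : G → M2 k} :
    c ∈ ZA 𝒰 r ↔ IsCoc0 r c ∧ LevK 𝒰 c := Iff.rfl

/-- the level constant cocycles with values in `k(η)`. -/
def ZC (𝒰 : LevelSys G) (η : G →* kˣ) : AddSubgroup (G → k) where
  carrier := {f | IsCocChar η f ∧ LevK 𝒰 f}
  add_mem' := by
    rintro f f' ⟨h, hl⟩ ⟨h', hl'⟩
    refine ⟨fun σ τ => ?_, hl.map₂ hl' (· + ·)⟩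
    simp only [Pi.add_apply, h σ τ, h' σ τ, mul_add]
    abel
  zero_mem' := ⟨fun σ τ => by simp, LevK.const 𝒰 0⟩
  neg_mem' := by
    rintro f ⟨h, hl⟩
    refine ⟨fun σ τ => ?_, hl.map (- ·)⟩
    simp only [Pi.neg_apply, h σ τ, mul_neg, neg_add]

lemma mem_ZC {𝒰 : LevelSys G} {η : G →* kˣ} {f : G → k} :
    f ∈ ZC 𝒰 η ↔ IsCocChar η f ∧ LevK 𝒰 f := Iff.rfl

/-- **unipotent on `I`**: `tr (c s · r s) = 0` for `s ∈ I`
(`⟺ (1 + ε c) r` has trace `2` on `I`, if `r` has). -/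
def LUniA (𝒰 : LevelSys G) (I : Subgroup G) (r : G →* M2 k) : AddSubgroup (G → M2 k) where
  carrier := {c | c ∈ ZA 𝒰 r ∧ ∀ s ∈ I, (c s * r s).trace = 0}
  add_mem' := by
    rintro c c' ⟨h, hl⟩ ⟨h', hl'⟩
    refine ⟨add_mem h h', fun s hs => ?_⟩
    rw [Pi.add_apply, add_mul, Matrix.trace_add, hl s hs, hl' s hs, add_zero]
  zero_mem' := ⟨zero_mem _, fun s _ => by simp⟩
  neg_mem' := by
    rintro c ⟨h, hl⟩
    refine ⟨neg_mem h, fun s hs => ?_⟩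
    rw [Pi.neg_apply, neg_mul, Matrix.trace_neg, hl s hs, neg_zero]

lemma mem_LUniA {𝒰 : LevelSys G} {I : Subgroup G} {r : G →* M2 k} {c : G → M2 k} :
    c ∈ LUniA 𝒰 I r ↔ c ∈ ZA 𝒰 r ∧ ∀ s ∈ I, (c s * r s).trace = 0 := Iff.rfl

/-- **strictly ordinary**: cohomologous to a cocycle with values in the line `k N`. -/
def LOrdA (𝒰 : LevelSys G) (r : G →* M2 k) (N : M2 k) : AddSubgroup (G → M2 k) where
  carrier := {c | c ∈ ZA 𝒰 r ∧ ∃ Y : M2 k, ∀ g, ∃ a : k, c g - cob r Y g = a • N}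
  add_mem' := by
    rintro c c' ⟨h, Y, hY⟩ ⟨h', Y', hY'⟩
    refine ⟨add_mem h h', Y + Y', fun g => ?_⟩
    obtain ⟨a, ha⟩ := hY g
    obtain ⟨a', ha'⟩ := hY' g
    refine ⟨a + a', ?_⟩
    rw [add_smul, ← ha, ← ha']
    simp only [Pi.add_apply, cob, mul_add, add_mul]
    abel
  zero_mem' := ⟨zero_mem _, 0, fun g => ⟨0, by simp [cob]⟩⟩
  neg_mem' := by
    rintro c ⟨h, Y, hY⟩
    refine ⟨neg_mem h, -Y, fun g => ?_⟩
    obtain ⟨a, ha⟩ := hY g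
    refine ⟨-a, ?_⟩
    rw [neg_smul, ← ha]
    simp only [Pi.neg_apply, cob, mul_neg, neg_mul]
    abel

lemma mem_LOrdA {𝒰 : LevelSys G} {r : G →* M2 k} {N : M2 k} {c : G → M2 k} :
    c ∈ LOrdA 𝒰 r N ↔ c ∈ ZA 𝒰 r ∧ ∃ Y : M2 k, ∀ g, ∃ a : k, c g - cob r Y g = a • N := Iff.rfl

/-- the structure of `(G, I)` modulo the normal subgroup `U`: `G/IU` is cyclic generated by `φ`, `IU/U` is
generated by `s₀` and elements of `q`-power order, and `φ s₀ φ⁻¹ ≡ s₀ ^ q` modulo such elements. -/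
structure TameMod (q : ℕ) (I U : Subgroup G) (φ s₀ : G) : Prop where
  mem : s₀ ∈ I
  cyc : ∀ g : G, ∃ n : ℕ, ∃ s ∈ I, ∃ u ∈ U, g = φ ^ n * s * u
  tame : ∀ s ∈ I, ∃ n : ℕ, ∃ x ∈ I, ∃ u ∈ U, (∃ m : ℕ, x ^ q ^ m ∈ U) ∧ s = s₀ ^ n * x * u
  conj : ∃ x ∈ I, ∃ u ∈ U, (∃ m : ℕ, x ^ q ^ m ∈ U) ∧ φ * s₀ * φ⁻¹ = s₀ ^ q * x * u

end Abstract

section Local

variable (q : ℕ) [Fact q.Prime]

/-- the absolute inertia subgroup of `G_{ℚ_q}` (pulled back from `G_ℚ`). -/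
def In : Subgroup (Gq q) :=
  ((padicPlace q).inertiaSubgroupIn ℚ).comap (localGaloisToGlobal q)

lemma mem_In {τ : Gq q} :
    τ ∈ In q ↔ localGaloisToGlobal q τ ∈ (padicPlace q).inertiaSubgroupIn ℚ := Iff.rfl

end Local

end Fermat.Agent.TW56.LocQ

end
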