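/-
TEAM TW56 -> S56, block [LOCQ] (architect helper88).  File 2: INTERFACE.

Every `Stmt_xxx` is one work package: prove `theorem stmt_xxx : (deps →) Stmt_xxx` in the file named in the
task.  Vocabulary: `LocQ/Defs.lean`, `Flat/Defs.lean` (IsCoc0, IsCocChar, cob, IsInert, IsInertGp, GM),
`Flat/Interface.lean` (conjRep, Stmt_Descend), `CFT/Top/SCb.lean` (Z1, cls1, mem_Z1, mem_C1, cls1_eq_zero_iff),
`CFT/Local/Tower2.lean`.  NEVER edit a file outside `Fermat/Agent/TW56/LocQ`.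

   TW56.Stmt_LocQ    ⟸ Dict, QLev (⟸ QAbs ⟸ MatN), TameQ
   TW56.Stmt_LocUnip ⟸ Dict, UniLev (⟸ UniAbs ⟸ MatN), TameQ
   TW56.Stmt_LocOrd  ⟸ Dict, OrdAbs (⟸ OrdTri, NilConj, ConjZ), Tensor, ZCyc ⟸ H1mu, ZCH1
   TameQ ⟸ InAbs (⟸ Dense), InLift, helper61's [TAME] (`Count/Tame*.lean`, all proved), `Local.all_padicTower`
-/
import Fermat.Agent.TW56.LocQ.Defs

set_option autoImplicit false

noncomputable section

namespace Fermat.Agent.TW56.LocQ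

open _root_.Fermat.Agent.CFT.Top _root_.Fermat.Agent.CFT.Local _root_.Fermat.Agent.CFT.Pos ExtCitation
  Polynomial Matrix
open _root_.Fermat.Agent.S53 (M2)
open _root_.Fermat.Agent.TW56.Flat (IsCoc0 IsCocChar cob conjRep)

/-! ## Block A : abstract algebra -/

/-- A0. a set all of whose finite subsets have at most `n` elements is finite with at most `n`
elements. -/
def Stmt_FinBound : Prop :=
  ∀ (X : Type) (L : Set X) (n : ℕ), (∀ T : Finset X, (↑T : Set X) ⊆ L → T.card ≤ n) →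
    Finite L ∧ Nat.card L ≤ n

/-- A1. counts of matrices.
[(1),(2): `N = !![a, b; c, d]`; `N² = 0` gives `a + d = 0` and `a² + bc = 0` (if `a + d ≠ 0` then `N = 0`), so
`b ≠ 0` or `c ≠ 0`.  (1) `tr m = 0`, `tr (m N) = 0`: `m 1 1 = - m 0 0` and one of `m 0 1`, `m 1 0` is
determined by the two other entries: injection into `k × k`.  (2) `m N = N m`, `tr m = 0`, `2 ≠ 0`:
`m` is determined by one entry (`m = y N`): injection into `k`.
(3) `R` with characteristic polynomial `(X - α)(X - β)`, `α ≠ β` (`Matrix.charpoly_fin_two`: `tr R = α + β`,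
`det R = α β`): `R` is not scalar; `m R = R m` and `tr m = 0` leave one free entry (cases `R 0 1 ≠ 0`,
`R 1 0 ≠ 0`, or `R` diagonal with `R 0 0 ≠ R 1 1`; in the first case `m 1 0`, `m 0 0 - m 1 1` are multiples of
`m 0 1`, and if `2 = 0` use `tr R ≠ 0`...; any correct argument is fine).  (4) `m ↦ (m 0 0, m 0 1, m 1 0)`.] -/
def Stmt_MatN : Prop :=
  ∀ (k : Type) [Field k] [Finite k],
    (∀ N : M2 k, N ≠ 0 → N * N = 0 →
      Nat.card {m : M2 k // m.trace = 0 ∧ (m * N).trace = 0} ≤ Nat.card k ^ 2 ∧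
      ((2 : k) ≠ 0 → Nat.card {m : M2 k // m.trace = 0 ∧ m * N = N * m} ≤ Nat.card k)) ∧
    (∀ (R : M2 k) (α β : k), α ≠ β → R.charpoly = (X - C α) * (X - C β) →
      Nat.card {m : M2 k // m.trace = 0 ∧ m * R = R * m} ≤ Nat.card k) ∧
    Nat.card {m : M2 k // m.trace = 0} ≤ Nat.card k ^ 3

/-- A2. **the unipotent count modulo `U`.**
[`Z` := the additive group of the cocycles in question.  For a cocycle `c`, `K_c = {g | c g = 0}` is a
subgroup containing `U`.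
(a) `s ∈ I`: `(r s - 1)² = 0` (Cayley-Hamilton: `Matrix.charpoly_fin_two` / direct computation with
`trace = 2`, `det = 1`), so `(r s) ^ p = 1` (`add_pow_char` or `(1 + n)^p = 1 + p n`).
(b) `x ∈ I`, `x ^ q ^ m ∈ U`: `(r x) ^ (q ^ m) = 1` and `(r x) ^ p = 1`, coprime: `r x = 1`; then
`c (x ^ j) = j • c x`, so `q ^ m • c x = 0`, `c x = 0` (`(q : k) ≠ 0`).
(c) `N := r s₀ - 1`: `N² = 0`; `N ≠ 0` (`r s = (r s₀) ^ n` for `s ∈ I`).
(d) `c ↦ c s₀` maps `Z` into `{m | tr m = 0 ∧ tr (m N) = 0}`  (`≤ #k²` by A1).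
(e) if `c s₀ = 0` then `I ≤ K_c` by (b); for `s ∈ I`: `c (s g) = r s (c g) (r s)⁻¹` and
`c (s g) = c (g (g⁻¹ s g)) = c g`, so `c g` commutes with `r s₀`, i.e. with `N`;
`c ↦ c φ` maps `{c ∈ Z | c s₀ = 0}` into `{m | tr m = 0 ∧ m N = N m}` (`≤ #k` by A1), injectively: if also
`c φ = 0` then `K_c = G` by `cyc`.
(f) `#Z ≤ #k² · #k` (`Flat.CaseR_card_le` in `Flat/CaseR.lean`, or map `c ↦ (c s₀, c φ)`: it is injective, and
count the image fibrewise).] -/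
def Stmt_UniAbs : Prop :=
  ∀ (p q : ℕ) [Fact p.Prime] [Fact q.Prime] (k : Type) [Field k] [Finite k] [CharP k p], p ≠ 2 →
    q ≠ p → ∀ (G : Type) [Group G] (I U : Subgroup G) (φ s₀ : G), I.Normal → U.Normal →
    TameMod q I U φ s₀ →
    ∀ r : G →* M2 k, (∀ u ∈ U, r u = 1) → (∀ s ∈ I, (r s).trace = 2 ∧ (r s).det = 1) →
    (∃ s ∈ I, r s ≠ 1) →
    ∀ T : Finset (G → M2 k), (∀ c ∈ T, IsCoc0 r c ∧ (∀ g, ∀ u ∈ U, c (g * u) = c g) ∧
      ∀ s ∈ I, (c s * r s).trace = 0) → T.card ≤ Nat.card k ^ 3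

/-- A3. the unipotent count.  [A0; a finite subset of `LUniA` and `r` have a common level `U ∈ 𝒰.S`
(`𝒰.dir`, induction on the finset); A2.  Coboundaries: `cob r X` is a trace zero cocycle
(`Flat.Ord_isCoc0_cob` in `Flat/CaseOrd.lean`), level constant because `r` is, and
`tr ((r s X (r s)⁻¹ - X) r s) = tr (r s X) - tr (X r s) = 0`.] -/
def Stmt_UniLev : Prop :=
  ∀ (p q : ℕ) [Fact p.Prime] [Fact q.Prime] (k : Type) [Field k] [Finite k] [CharP k p], p ≠ 2 →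
    q ≠ p → ∀ (G : Type) [Group G] (𝒰 : LevelSys G) (I : Subgroup G), I.Normal →
    (∀ U ∈ 𝒰.S, ∃ φ s₀ : G, TameMod q I U φ s₀) →
    ∀ r : G →* M2 k, LevK 𝒰 r → (∀ s ∈ I, (r s).trace = 2 ∧ (r s).det = 1) →
    (∃ s ∈ I, r s ≠ 1) →
    (∀ X : M2 k, cob r X ∈ LUniA 𝒰 I r) ∧ Finite (LUniA 𝒰 I r) ∧
      Nat.card (LUniA 𝒰 I r) ≤ Nat.card k ^ 3

/-- A4. **the count at a Taylor-Wiles prime, modulo `U`.**
[`Z` := the additive group of the cocycles in question; `K_c = {g | c g = 0}` is a subgroup containing `U`.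
(a) `r = 1` on `I`, so `c` is additive on `I`; `x ∈ I`, `x ^ q ^ m ∈ U`: `q ^ m • c x = 0`, and `(q : k) = 1`
(`p ∣ q - 1`, `CharP k p`), so `c x = 0`.
(b) `c (g s g⁻¹) = r g * c s * r g⁻¹` for `s ∈ I` (cocycle relation, `r s = 1`, `c 1 = 0`).  With `conj`:
`r φ * m * r φ⁻¹ = c (s₀ ^ q * x * u) = q • m = m`, `m := c s₀`.  So `m` commutes with `r φ`.
(c) `r g = (r φ) ^ n` by `cyc`; so `m` commutes with `R := r g₀`: `c ↦ c s₀` maps `Z` into
`{m | tr m = 0 ∧ m R = R m}` (`≤ #k` by A1 (3)).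
(d) if `c s₀ = 0` then `I ≤ K_c` (`tame`, (a)); `c ↦ c φ` is injective on `{c ∈ Z | c s₀ = 0}` (`cyc`), with
values in `{m | tr m = 0}` (`≤ #k³` by A1 (4)).
(e) `#Z ≤ #k · #k³` (`Flat.CaseR_card_le` in `Flat/CaseR.lean`).] -/
def Stmt_QAbs : Prop :=
  ∀ (p q : ℕ) [Fact p.Prime] [Fact q.Prime] (k : Type) [Field k] [Finite k] [CharP k p],
    p ∣ q - 1 → ∀ (G : Type) [Group G] (I U : Subgroup G) (φ s₀ : G), I.Normal → U.Normal →
    TameMod q I U φ s₀ →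
    ∀ r : G →* M2 k, (∀ u ∈ U, r u = 1) → (∀ s ∈ I, r s = 1) →
    (∃ (g₀ : G) (α β : k), α ≠ β ∧ (r g₀).charpoly = (X - C α) * (X - C β)) →
    ∀ T : Finset (G → M2 k), (∀ c ∈ T, IsCoc0 r c ∧ ∀ g, ∀ u ∈ U, c (g * u) = c g) →
    T.card ≤ Nat.card k ^ 4

/-- A4'. the count at a Taylor-Wiles prime.  [A0; a finite subset of `ZA 𝒰 r` and `r` have a common level
`U ∈ 𝒰.S` (`𝒰.dir`, induction on the finset; `𝒰.normal`); A4.] -/
def Stmt_QLev : Prop :=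
  ∀ (p q : ℕ) [Fact p.Prime] [Fact q.Prime] (k : Type) [Field k] [Finite k] [CharP k p],
    p ∣ q - 1 → ∀ (G : Type) [Group G] (𝒰 : LevelSys G) (I : Subgroup G), I.Normal →
    (∀ U ∈ 𝒰.S, ∃ φ s₀ : G, TameMod q I U φ s₀) →
    ∀ r : G →* M2 k, LevK 𝒰 r → (∀ s ∈ I, r s = 1) →
    (∃ (g₀ : G) (α β : k), α ≠ β ∧ (r g₀).charpoly = (X - C α) * (X - C β)) →
    Finite (ZA 𝒰 r) ∧ Nat.card (ZA 𝒰 r) ≤ Nat.card k ^ 4

/-- A5. conjugation.  [`c ↦ (g ↦ Q * c g * Q')` is injective (`Q * Q' = 1` too: `mul_eq_one_comm`) and maps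
`LOrdA 𝒰 r N` into `LOrdA 𝒰 (conjRep Q Q' h r) (Q * N * Q')`; see `Flat/Conj.lean` (`Conj_isCoc0`, `Conj_trace`,
`Conj_cob`).] -/
def Stmt_ConjZ : Prop :=
  ∀ (k : Type) [Field k] (G : Type) [Group G] (𝒰 : LevelSys G) (Q Q' : M2 k) (h : Q' * Q = 1)
    (r : G →* M2 k) (n : ℕ) (N : M2 k), Finite (LOrdA 𝒰 (conjRep Q Q' h r) (Q * N * Q')) →
      Nat.card (LOrdA 𝒰 (conjRep Q Q' h r) (Q * N * Q')) ≤ n →
      Finite (LOrdA 𝒰 r N) ∧ Nat.card (LOrdA 𝒰 r N) ≤ n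

/-- A8. from `𝔽_p` to `k`.  [an additive isomorphism `e : k ≃+ (Fin n → ZMod p)`, `#k = p ^ n`
(`ZMod.algebra`, `Module.finBasis`, `Module.card_eq_pow_finrank`).  For `f ∈ ZC 𝒰 η` each component
`g ↦ e (f g) i` is in `ZC 𝒰 χ` (`e ((a : k) * x) = a • e x`): injection `ZC 𝒰 η → (Fin n → ZC 𝒰 χ)`;
`(p ^ d) ^ n = (p ^ n) ^ d`.] -/
def Stmt_Tensor : Prop :=
  ∀ (p : ℕ) [Fact p.Prime] (k : Type) [Field k] [Finite k] [CharP k p] (G : Type) [Group G]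
    (𝒰 : LevelSys G) (χ : G →* (ZMod p)ˣ) (η : G →* kˣ),
    (∀ g, (η g : k) = (((χ g : (ZMod p)ˣ) : ZMod p).val : k)) →
    ∀ d : ℕ, Finite (ZC 𝒰 χ) → Nat.card (ZC 𝒰 χ) ≤ p ^ d →
    Finite (ZC 𝒰 η) ∧ Nat.card (ZC 𝒰 η) ≤ Nat.card k ^ d

/-- A9. raw cocycles with values in `𝔽_p(χ)` and `H¹`.
[`n₀` a basis vector of `N`; `f ↦ (g ↦ f g • n₀)` is a bijection `ZC 𝒰 χ → Z1 𝒰 N` (`mem_Z1`, `mem_C1`; the
second clause of `mem_C1` is automatic: for `u` in a (normal!) level `U` of `f`: `f u = f (1 * u) = f 1 = 0`,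
`f (u g) = χ u * f g` and `f (u g) = f (g (g⁻¹ u g)) = f g`).  `cls1` is onto with kernel
`{g ↦ g m - m}`, at most `p` elements (`cls1_surjective`, `cls1_eq_zero_iff`), trivial if `χ = 1`.] -/
def Stmt_ZCH1 : Prop :=
  ∀ (p : ℕ) [Fact p.Prime] (G : Type) [Group G] (𝒰 : LevelSys G) (χ : G →* (ZMod p)ˣ)
    (N : Rep.{0} (ZMod p) G), IsMu χ N → Finite (Hlc 𝒰 N 1) →
    Finite (ZC 𝒰 χ) ∧ Nat.card (ZC 𝒰 χ) ≤ Nat.card (Hlc 𝒰 N 1) * p ∧
      ((∀ g, χ g = 1) → Nat.card (ZC 𝒰 χ) = Nat.card (Hlc 𝒰 N 1))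

/-- A11. the strictly ordinary count, upper triangular form (`N = E₁₂`).
[the hypothesis says `r g 1 0 = 0`, `r g 0 0 = η g * r g 1 1`.  For upper triangular `Y`, `cob r Y g` is a
multiple of `E₁₂` (`Flat.Ord_conj10/11/01` in `Flat/CaseOrd.lean`).  So every `c ∈ LOrdA` is
`f • E₁₂ + t • cob r E₂₁` with `t ∈ k` (`t = Y 1 0`) and `f : G → k`; `f • E₁₂ = c - t • cob r E₂₁` is a level
constant cocycle, so `f ∈ ZC 𝒰 η`.  Hence `LOrdA` is contained in the image of a map `ZC 𝒰 η × k → (G → M₂)`.] -/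
def Stmt_OrdTri : Prop :=
  ∀ (k : Type) [Field k] [Finite k] (G : Type) [Group G] (𝒰 : LevelSys G) (r : G →* M2 k)
    (η : G →* kˣ), LevK 𝒰 r →
    (∀ g, r g * !![0, 1; 0, 0] = (η g : k) • (!![0, 1; 0, 0] * r g)) →
    ∀ d : ℕ, Finite (ZC 𝒰 η) → Nat.card (ZC 𝒰 η) ≤ Nat.card k ^ d →
    Finite (LOrdA 𝒰 r !![0, 1; 0, 0]) ∧ Nat.card (LOrdA 𝒰 r !![0, 1; 0, 0]) ≤ Nat.card k ^ (d + 1)

/-- A12. a nilpotent matrix `N ≠ 0` is conjugate to `E₁₂`.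
[`v` with `N v ≠ 0`; `Q'` = the matrix with columns `N v, v` (determinant `≠ 0`), `Q = Q'⁻¹`;
`N Q' = Q' E₁₂`.  Or by cases on the entries of `N`.] -/
def Stmt_NilConj : Prop :=
  ∀ (k : Type) [Field k] (N : M2 k), N ≠ 0 → N * N = 0 →
    ∃ Q Q' : M2 k, Q' * Q = 1 ∧ Q * N * Q' = !![0, 1; 0, 0]

/-- A13. the strictly ordinary count.  [A12, A5, A11 for `conjRep Q Q' h r` (it is level constant, and
`(Q r g Q') (Q N Q') = Q (r g N) Q'`).  Coboundaries: `Y = X`, `a = 0`.] -/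
def Stmt_OrdAbs : Prop :=
  ∀ (k : Type) [Field k] [Finite k] (G : Type) [Group G] (𝒰 : LevelSys G) (r : G →* M2 k)
    (η : G →* kˣ) (N : M2 k), LevK 𝒰 r → N ≠ 0 → N * N = 0 →
    (∀ g, r g * N = (η g : k) • (N * r g)) →
    ∀ d : ℕ, Finite (ZC 𝒰 η) → Nat.card (ZC 𝒰 η) ≤ Nat.card k ^ d →
    (∀ X : M2 k, cob r X ∈ LOrdA 𝒰 r N) ∧ Finite (LOrdA 𝒰 r N) ∧
      Nat.card (LOrdA 𝒰 r N) ≤ Nat.card k ^ (d + 1)

/-! ## Block L : input from local class field theory (`CFT/Local`) -/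

/-- L4. `#H¹(G_{ℚ_p}, μ_p) = p²` for `p` odd.
[`Local.all_towerKummer2`, `Local.all_towerH1card` (`CFT/Local/TowerAll.lean`) for the tower
`Local.all_padicTower p` (`CFT/Local/Final.lean`); the embedding `e`, the uniformiser and `resCard` from
`Loc.Stmt_lecCtx p p` (fields `emb`, `res`, `hp`; `ε = 1`).  `#{z | z ^ p = 1 ∧ z ∈ fixedU} = 1`:
a `p`-th root of unity `z ≠ 1` fixed by `G_{ℚ_p}` lies in `ℚ_p` (fixed field: `padicTower`/`IsGalois`), but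
`ℚ_p` has none for `p ≠ 2`: `z ∈ ℤ_p`, `z ≡ z ^ p = 1 mod p`, `z = 1 + p u`, and
`‖(1 + p u) ^ p - 1‖ = ‖p‖ ‖p u‖ ≠ 0` (`PowIndex.norm_pow_sub_one` in `CFT/Local/PowIndex.lean`).] -/
def Stmt_H1mu : Prop :=
  ∀ (p : ℕ) [Fact p.Prime], p ≠ 2 →
    Nat.card (Hlc (levq p) (Rep.res (localGaloisToGlobal p) (muRep (ZMod p) (cycloChar p))) 1)
      = p ^ 2

/-- L5. `#Z¹(G_{ℚ_p}, 𝔽_p(ω)) ≤ p³`.  [L4, A9 with
`N = Rep.res (localGaloisToGlobal p) (muRep (ZMod p) (cycloChar p))` (`IsMu`: `Pos.Local_isMu` or directly);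
`Finite` from `Nat.card ≠ 0` (`Nat.finite_of_card_ne_zero`).] -/
def Stmt_ZCyc : Prop :=
  ∀ (p : ℕ) [Fact p.Prime], p ≠ 2 →
    Finite (ZC (levq p) ((cycloChar p).comp (localGaloisToGlobal p))) ∧
    Nat.card (ZC (levq p) ((cycloChar p).comp (localGaloisToGlobal p))) ≤ p ^ 3

/-! ## Block T : the tame structure of `G_{ℚ_q}` -/

/-- T1. `ℚ̄` is dense in `ℚ̄_q` (only radius `1` is needed).
[`f = minpoly ℚ_[q] x`, monic of degree `n` (`x` is algebraic/integral over `ℚ_[q]`).  Choose `b_j ∈ ℚ` with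
`‖a_j - b_j‖ < 1` (`Padic.rat_dense`), `g = X^n + ∑_{j<n} b_j X^j ∈ ℚ[X]`.  Then
`g(x) = g(x) - f(x) = ∑ (b_j - a_j) x^j` has norm `< 1` (ultrametric: `IsUltrametricDist`/
`PadicAlgCl.isNonarchimedean`, `PadicAlgCl.norm_extends`).  `g` splits over `ℚ̄`:
`g = ∏ (X - γ_i)` (`IsAlgClosed.splits`, `Polynomial.Splits...eq_prod_roots`); apply `ι`:
`g(x) = ∏ (x - ι γ_i)`, so `∏ ‖x - ι γ_i‖ < 1` and one factor is `< 1`.] -/
def Stmt_Dense : Prop :=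
  ∀ (q : ℕ) [Fact q.Prime] (x : PadicAlgCl q), ‖x‖ ≤ 1 →
    ∃ y : AlgebraicClosure ℚ, ‖x - padicEmbedding q y‖ < 1

/-- T2. the absolute inertia group acts trivially on the residue field of `ℚ̄_q`.
[`τ ∈ In q` means: `‖τ (ι a) - ι a‖ < 1` for all `a : ℚ̄` with `‖ι a‖ ≤ 1` (the lemma at line 24 of
`CFT/Top/BridgeLevels.lean`: `σ ∈ A.inertiaSubgroupIn ℚ ↔ σ • A = A ∧ ∀ a ∈ A, σ a - a ∈ A.nonunits`;
`mem_padicPlace_iff`, `padicEmbedding_localGaloisToGlobal`; `a ∈ A.nonunits ↔ ‖ι a‖ < 1`).  T1: `‖x - ι y‖ < 1`,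
so `‖ι y‖ ≤ 1`; `τ x - x = τ (x - ι y) + (τ (ι y) - ι y) - (x - ι y)`, ultrametric,
`‖τ z‖ = ‖z‖` (`nnnorm_padicAlgCl_algEquiv`).] -/
def Stmt_InAbs : Prop :=
  ∀ (q : ℕ) [Fact q.Prime], ∀ τ ∈ In q, ∀ x : PadicAlgCl q, ‖x‖ ≤ 1 → ‖τ x - x‖ < 1

/-- T3. inertia elements of a finite level lift to the absolute inertia group.
[`U = U₀.comap loc`, `U₀ ∈ levAll.S`: normal, contains some `F.fixingSubgroup`, so open
(`IntermediateField.fixingSubgroup_isOpen`, `Subgroup.isOpen_mono`).  `σ₀ = loc τ`.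
`S14.stmt_DIC` (`Fermat/Agent/S14/DIC.lean`) with `U₀`, `V = padicPlace q` (`CFT.padicPlace_liesOverPrime`).
Its hypothesis: `b` integral over `ℤ`, fixed by `U₀`; then `ι b` is fixed by `U`
(`padicEmbedding_localGaloisToGlobal`), `‖ι b‖ ≤ 1` (`S54.Frob95.mem_of_isIntegral`), and
`ι (σ₀ b - b) = τ (ι b) - ι b` has norm `< 1`.  It gives `u ∈ U₀` with `u σ₀` in the inertia group, which is
contained in the decomposition group `= range loc` (`CFT.range_localGaloisToGlobal` in `CFT/LocalBridge.lean`):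
`u σ₀ = loc τ'`; `w := τ' τ⁻¹`.] -/
def Stmt_InLift : Prop :=
  ∀ (q : ℕ) [Fact q.Prime], ∀ U ∈ (levq q).S, ∀ τ : Gq q,
    (∀ x : PadicAlgCl q, (∀ u ∈ U, u x = x) → ‖x‖ ≤ 1 → ‖τ x - x‖ < 1) → ∃ w ∈ U, w * τ ∈ In q

/-- T4. **the tame structure of `G_{ℚ_q}` modulo every level.**
[`In q` is normal: the inertia group is normal in the decomposition group (it is a kernel) and `loc` has values
in the decomposition group.  Fix `U ∈ (levq q).S`; `Γ = Gq q ⧸ U`, `L = FixedPoints.subfield U (PadicAlgCl q)`,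
`hL : LocAct Γ L := (Local.all_padicTower q).layer U hU` (`CFT/Local/Final.lean`; instances `U.Normal`,
`Finite Γ` from `(levq q).normal`, `(levq q).fin`; `attribute [local instance] quotAct`;
`quotAct_mk_smul`).  helper61's [TAME], all unconditional: `Count.stmt_frob Count.stmt_resFix` (`φ̄`, with
`Q = resCard (FixedPoints.subfield Γ L) = resCard (FixedPoints.subfield (Gq q) _) = q`:
`Local.all_towerBase`, `Local.LN_resCard` in `CFT/Local/LN.lean`), `Count.stmt_tameCyc` (`s̄₀`),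
`Count.stmt_frobConj`, `Count.stmt_wildP` with `ℓ = q`; `IsWild → IsIn`.
By T3 every `s̄` with `Count.IsIn L s̄` is the class of an element of `In q`; by T2 the class of an element of
`In q` satisfies `Count.IsIn L`.  `QuotientGroup.eq`: `mk a = mk b ↔ a⁻¹ * b ∈ U`.] -/
def Stmt_TameQ : Prop :=
  ∀ (q : ℕ) [Fact q.Prime], (In q).Normal ∧
    ∀ U ∈ (levq q).S, ∃ φ s₀ : Gq q, TameMod q (In q) U φ s₀

/-! ## Block G : the outputs, in the format of `GW.Stmt_GWmat` -/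

/-- G0. dictionary.  (`primeLocalGaloisGroup v` unfolds to `Gq v`, `primeLocalToGlobal v` to
`localGaloisToGlobal v`, `primeLocalPlace v` to `padicPlace v`, with the instance `⟨v.2⟩`.)
[(1) `F ↦` the level `(ncl F).fixingSubgroup.comap loc`; conversely `U = U₀.comap loc`,
`U₀ ⊇ F.fixingSubgroup`.  (2) the same for `rb`.] -/
def Stmt_Dict : Prop :=
  ∀ (k : Type) [Field k] (rb : GQ →* M2 k) (v : Nat.Primes),
    letI : Fact (v : ℕ).Prime := ⟨v.2⟩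
    (∀ c : Gq (v : ℕ) → M2 k, c ∈ GW.ZLoc rb v ↔
      c ∈ ZA (levq (v : ℕ)) (rb.comp (localGaloisToGlobal (v : ℕ)))) ∧
    (FinLevel rb 1 → LevK (levq (v : ℕ)) (rb.comp (localGaloisToGlobal (v : ℕ))))

/-! ### the outputs are helper55's contracts of `Top/Asm.lean`:

* G1 `theorem locQ (hD : Stmt_Dict) (hQ : Stmt_QLev) (hT : Stmt_TameQ) : TW56.Stmt_LocQ`
  [`CharP k p` from `Algebra (ZMod p) k` (`charP_of_injective_algebraMap`).  `r = rb.comp loc`, `𝒰 = levq q`,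
  `I = In q`.  `A = padicPlace q` (`CFT.padicPlace_liesOverPrime`).  `φ` from
  `S54.Frob95.exists_stabilizer_frobenius A`; it is a Frobenius in the sense of the prelude (copy the end of the
  proof of `S54.Frob95.exists_frobenius`, or `Sel.Places_frob_iff`), it lies in the decomposition group
  `= range loc` (`CFT.range_localGaloisToGlobal`): this gives `g₀`.]
* G2 `theorem locUnip (hD : Stmt_Dict) (hU : Stmt_UniLev) (hT : Stmt_TameQ) : TW56.Stmt_LocUnip`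
  [`LUnip rb v` and `LUniA (levq v) (In v) (rb.comp loc)` have the same elements by G0.]
* G3 `theorem locOrd (hD : Stmt_Dict) (hZ : Stmt_ZCyc) (hT : Stmt_Tensor) (hO : Stmt_OrdAbs) : TW56.Stmt_LocOrd`
  [`N = nil ℓ`: `N ≠ 0`, `N * N = 0`; `N *ᵥ w = (ℓ 0 * w 1 - ℓ 1 * w 0) • ℓ`.  From `RbOrdV.shape`:
  `r g * N = (ω z) • N`, `N * r g = z • N`, `z ≠ 0`, so `r g * N = ω • (N * r g)`.
  `χ = (cycloChar p).comp loc`, `η = (Units.map (algebraMap (ZMod p) k)).comp χ`,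
  `(η g : k) = ((χ g).val : k)` (`ZMod.natCast_zmod_val`, `map_natCast`).  L5, A8 (`d = 3`), A13.] -/

end Fermat.Agent.TW56.LocQ

end
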