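/-
TEAM TW56 -> S56, block [LOCQ], task LOCQ-A5 (helper54): conjugation of `LOrdA`.
-/
import Fermat.Agent.TW56.LocQ.Interface
import Fermat.Agent.TW56.Flat.Conj

set_option autoImplicit false

noncomputable section

namespace Fermat.Agent.TW56.LocQ

open _root_.Fermat.Agent.CFT.Top _root_.Fermat.Agent.CFT.Local _root_.Fermat.Agent.CFT.Pos ExtCitation
  Polynomial Matrix
open _root_.Fermat.Agent.S53 (M2)
open _root_.Fermat.Agent.TW56.Flat (IsCoc0 IsCocChar cob conjRep)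

lemma ConjZ_mem {k : Type} [Field k] {G : Type} [Group G] (𝒰 : LevelSys G) (Q Q' : M2 k)
    (h : Q' * Q = 1) (r : G →* M2 k) (N : M2 k) {c : G → M2 k} (hc : c ∈ LOrdA 𝒰 r N) :
    (fun g => Q * c g * Q') ∈ LOrdA 𝒰 (conjRep Q Q' h r) (Q * N * Q') := by
  obtain ⟨⟨h0, hl⟩, Y, hY⟩ := hc
  refine ⟨⟨Flat.Conj_isCoc0 h h0, hl.map (fun m => Q * m * Q')⟩, Q * Y * Q', fun g => ?_⟩
  obtain ⟨a, ha⟩ := hY g
  refine ⟨a, ?_⟩
  rw [← congrFun (Flat.Conj_cob h r Y) g]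
  show Q * c g * Q' - Q * cob r Y g * Q' = a • (Q * N * Q')
  rw [← sub_mul, ← mul_sub, ha, Matrix.mul_smul, Matrix.smul_mul]

/-- A5. conjugation. -/
theorem stmt_ConjZ : Stmt_ConjZ := by
  intro k _ G _ 𝒰 Q Q' h r n N hfin hcard
  have h' : Q * Q' = 1 := mul_eq_one_comm.mp h
  let F : LOrdA 𝒰 r N → LOrdA 𝒰 (conjRep Q Q' h r) (Q * N * Q') :=
    fun c => ⟨fun g => Q * c.1 g * Q', ConjZ_mem 𝒰 Q Q' h r N c.2⟩
  have hF : Function.Injective F := by
    intro c c' hcc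
    apply Subtype.ext
    funext g
    have h1 : Q * c.1 g * Q' = Q * c'.1 g * Q' := congrFun (congrArg Subtype.val hcc) g
    have h2 : Q' * (Q * c.1 g * Q') * Q = Q' * (Q * c'.1 g * Q') * Q := by rw [h1]
    have h3 : ∀ m : M2 k, Q' * (Q * m * Q') * Q = m := by
      intro m
      calc Q' * (Q * m * Q') * Q = (Q' * Q) * m * (Q' * Q) := by simp only [mul_assoc]
        _ = m := by rw [h, one_mul, mul_one]
    rwa [h3, h3] at h2
  exact ⟨Finite.of_injective F hF, (Nat.card_le_card_of_injective F hF).trans hcard⟩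

end Fermat.Agent.TW56.LocQ

end
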