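/-
TEAM TW56 -> S56, block [LOCQ], T1 : `ℚ̄` is dense in `ℚ̄_q` (`Stmt_Dense`).
The approximation argument of `CFT/Krasner.lean` (`lk_exists_mem_adjoin`) with an arbitrary radius.
-/
import Fermat.Agent.TW56.LocQ.Interface
import Fermat.Agent.CFT.Krasner

set_option autoImplicit false

noncomputable section

namespace Fermat.Agent.TW56.LocQ

open _root_.Fermat.Agent.CFT.Top _root_.Fermat.Agent.CFT.Local _root_.Fermat.Agent.CFT.Pos ExtCitation
  Polynomial Matrix
open _root_.Fermat.Agent.S53 (M2)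
open _root_.Fermat.Agent.TW56.Flat (IsCoc0 IsCocChar cob conjRep)

attribute [local instance] _root_.Fermat.Agent.CFT.lk_tower

/-- `ℚ̄` is dense in `ℚ̄_q`. -/
theorem Dense_approx (q : ℕ) [Fact q.Prime] (a : PadicAlgCl q) {δ : ℝ} (δpos : 0 < δ) :
    ∃ c : AlgebraicClosure ℚ, ‖a - padicEmbedding q c‖ < δ := by
  have haint : IsIntegral ℚ_[q] a := Algebra.IsIntegral.isIntegral a
  set f : ℚ_[q][X] := minpoly ℚ_[q] a with hf
  have fmon : f.Monic := minpoly.monic haint
  have firr : Irreducible f := minpoly.irreducible haint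
  have fa0 : f.aeval a = 0 := minpoly.aeval _ _
  have fnatdeg0 : f.natDegree ≠ 0 := (Irreducible.natDegree_pos firr).ne'
  have hε : (δ / (max ‖a‖ 1)) ^ f.natDegree / (f.natDegree + 1) > 0 := by positivity
  obtain ⟨g, gmon, gdeg, gcoeff⟩ :=
    exists_monic_and_natDegree_eq_and_norm_map_algebraMap_coeff_sub_lt
      (_root_.Fermat.Agent.CFT.lk_denseRange q) fmon hε
  obtain ⟨b, hb, hab⟩ := exists_aroots_norm_sub_lt_of_norm_coeff_sub_lt (L := PadicAlgCl q)
      hε fa0 fmon (gmon.map _) (gdeg ▸ (g.natDegree_map _)) gcoeff (IsAlgClosed.splits _)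
  have hab : ‖a - b‖ < δ := by
    rw [← Real.rpow_natCast, ← mul_comm_div, div_self, one_mul,
        ← Real.rpow_mul (div_pos δpos (by positivity)).le, mul_inv_cancel₀] at hab
    · simpa [mul_assoc, div_mul_cancel₀ _ (by positivity : (max ‖a‖ 1) > 0).ne'] using hab
    · simp [fnatdeg0]
    · positivity
  simp only [Polynomial.mem_roots', ne_eq, Polynomial.map_eq_zero, Polynomial.IsRoot.def,
    Polynomial.eval_map_algebraMap] at hb
  have hb0 : aeval b g = 0 := by
    have := hb.2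
    rwa [aeval_map_algebraMap] at this
  obtain ⟨c, rfl⟩ := _root_.Fermat.Agent.CFT.lk_mem_range_of_aeval_eq_zero q gmon.ne_zero hb0
  exact ⟨c, hab⟩

/-- T1. `ℚ̄` is dense in `ℚ̄_q` (radius `1`). -/
theorem stmt_Dense : Stmt_Dense := by
  intro q _ x _
  exact Dense_approx q x one_pos

end Fermat.Agent.TW56.LocQ

end
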