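/-
TEAM TW56 -> S56, block [LOCQ].  G0 : dictionary between `GW.ZLoc` and `ZA (levq v)`.
-/
import Fermat.Agent.TW56.LocQ.Interface
import Fermat.Agent.CFT.Top.BridgeLevels

set_option autoImplicit false

noncomputable section

namespace Fermat.Agent.TW56.LocQ

open _root_.Fermat.Agent.CFT.Top _root_.Fermat.Agent.CFT.Local _root_.Fermat.Agent.CFT.Pos ExtCitation
  Polynomial Matrix
open _root_.Fermat.Agent.S53 (M2)
open _root_.Fermat.Agent.TW56.Flat (IsCoc0 IsCocChar cob conjRep)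

/-- right invariance under the preimage of some `F.fixingSubgroup` = right invariance under a level. -/
theorem Dict_levK_iff {G' : Type} [Group G'] (loc : G' →* GQ) {X : Type} (f : G' → X) :
    (∃ F : IntermediateField ℚ (AlgebraicClosure ℚ), FiniteDimensional ℚ F ∧
      ∀ g s : G', loc s ∈ F.fixingSubgroup → f (g * s) = f g) ↔ LevK (levAll.comap loc) f := by
  constructor
  · rintro ⟨F, hF, h⟩
    refine ⟨_, ⟨F.fixingSubgroup.normalCore, BrLev.normalCore_mem_levAll hF, rfl⟩, fun g u hu => ?_⟩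
    exact h g u (Subgroup.normalCore_le _ hu)
  · rintro ⟨_, ⟨U₀, ⟨_, F, hF, hFU⟩, rfl⟩, h⟩
    exact ⟨F, hF, fun g s hs => h g s (hFU hs)⟩

/-- **G0** -/
theorem stmt_Dict : Stmt_Dict := by
  intro k _ rb v
  letI : Fact (v : ℕ).Prime := ⟨v.2⟩
  refine ⟨fun c => ?_, ?_⟩
  · rw [mem_ZA, ← Dict_levK_iff]
    exact Iff.rfl
  · rintro ⟨L, hL, h⟩
    rw [← Dict_levK_iff]
    refine ⟨L, hL, fun g s hs => ?_⟩
    have h1 : rb (localGaloisToGlobal (v : ℕ) s) = 1 :=
      h _ ((IntermediateField.mem_fixingSubgroup_iff _ _).1 hs)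
    rw [map_mul, MonoidHom.comp_apply, MonoidHom.comp_apply, h1, mul_one]

end Fermat.Agent.TW56.LocQ

end
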