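/-
TEAM TW56 -> S56, block [LOCQ] : A0 `Stmt_FinBound`.
-/
import Fermat.Agent.TW56.LocQ.Interface

set_option autoImplicit false

namespace Fermat.Agent.TW56.LocQ

theorem stmt_FinBound : Stmt_FinBound := by
  intro X L n h
  have hfin : L.Finite := by
    by_contra hinf
    obtain ⟨T, hT, hc⟩ := Set.Infinite.exists_subset_card_eq hinf (n + 1)
    have := h T hT
    omega
  refine ⟨hfin.to_subtype, ?_⟩
  have h1 := h hfin.toFinset (by rw [Set.Finite.coe_toFinset])
  rw [Nat.card_coe_set_eq, Set.ncard_eq_toFinset_card L hfin]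
  exact h1

end Fermat.Agent.TW56.LocQ
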