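/-
TEAM TW56 -> S56, block [LOCQ], task LOCQ-L4: `#H¹(G_{ℚ_p}, μ_p) = p²` for `p` odd (`Stmt_H1mu`).
-/
import Fermat.Agent.TW56.LocQ.Interface
import Fermat.Agent.TW56.Loc.LecCtx
import Fermat.Agent.CFT.Local.TowerAll

set_option autoImplicit false

noncomputable section

namespace Fermat.Agent.TW56.LocQ

open _root_.Fermat.Agent.CFT.Top _root_.Fermat.Agent.CFT.Local _root_.Fermat.Agent.CFT.Pos ExtCitation

attribute [local instance] Units.mulDistribMulActionRight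
attribute [local instance] quotAct

/-- a `p`-th root of unity congruent to `1` modulo `p` is `1` (`p` odd). -/
theorem H1mu_no_root {E : Type} [NormedField E] [IsUltrametricDist E] (p : ℕ) (hp : p.Prime)
    (hp2 : p ≠ 2) (hpE : (p : E) ≠ 0) (hp1 : ‖(p : E)‖ < 1) {x : E} (hx : ‖x - 1‖ ≤ ‖(p : E)‖)
    (hxp : x ^ p = 1) : x = 1 := by
  by_contra hne
  have hz0 : x - 1 ≠ 0 := sub_ne_zero.2 hne
  have hzpos : 0 < ‖x - 1‖ := norm_pos_iff.2 hz0
  have hppos : 0 < ‖(p : E)‖ := norm_pos_iff.2 hpE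
  have hz1 : ‖x - 1‖ < 1 := hx.trans_lt hp1
  have hsum : ∑ k ∈ Finset.range p, x ^ k = 0 := by
    have h1 := geom_sum_mul x p
    rw [hxp, sub_self] at h1
    exact (mul_eq_zero.1 h1).resolve_right hz0
  choose w hw hwe using fun k : ℕ => PowIndex.one_add_pow_eq (x - 1) hz1.le k
  have hwe' : ∀ k : ℕ, x ^ k = 1 + k * (x - 1) + (x - 1) * w k := by
    intro k
    have := hwe k
    rwa [add_sub_cancel] at this
  obtain ⟨m, hm⟩ : ∃ m : ℕ, ∑ k ∈ Finset.range p, k = p * m := by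
    obtain ⟨m, hm⟩ := (hp.eq_two_or_odd'.resolve_left hp2)
    refine ⟨m, ?_⟩
    have h1 := Finset.sum_range_id_mul_two p
    have h2 : p - 1 = m * 2 := by omega
    rw [h2, ← mul_assoc] at h1
    exact Nat.eq_of_mul_eq_mul_right (by norm_num) h1
  have hexp : ∑ k ∈ Finset.range p, x ^ k
      = (p : E) + ((p : E) * (m : E) * (x - 1) + (x - 1) * ∑ k ∈ Finset.range p, w k) := by
    simp_rw [hwe']
    rw [Finset.sum_add_distrib, Finset.sum_add_distrib, ← Finset.sum_mul, ← Finset.mul_sum,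
      ← Nat.cast_sum, hm]
    simp
    ring
  have hb1 : ‖(p : E) * (m : E) * (x - 1)‖ < ‖(p : E)‖ := by
    rw [norm_mul, norm_mul]
    have h1 : ‖(m : E)‖ ≤ 1 := IsUltrametricDist.norm_natCast_le_one E m
    calc ‖(p : E)‖ * ‖(m : E)‖ * ‖x - 1‖ ≤ ‖(p : E)‖ * 1 * ‖x - 1‖ := by gcongr
      _ < ‖(p : E)‖ * 1 * 1 := by gcongr
      _ = ‖(p : E)‖ := by ring
  have hb2 : ‖(x - 1) * ∑ k ∈ Finset.range p, w k‖ < ‖(p : E)‖ := by
    rw [norm_mul]
    have h1 : ‖∑ k ∈ Finset.range p, w k‖ ≤ ‖x - 1‖ :=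
      IsUltrametricDist.norm_sum_le_of_forall_le_of_nonneg (norm_nonneg _) (fun k _ => hw k)
    calc ‖x - 1‖ * ‖∑ k ∈ Finset.range p, w k‖ ≤ ‖(p : E)‖ * ‖x - 1‖ := by gcongr
      _ < ‖(p : E)‖ * 1 := by gcongr
      _ = ‖(p : E)‖ := by ring
  have hb3 : ‖(p : E) * (m : E) * (x - 1) + (x - 1) * ∑ k ∈ Finset.range p, w k‖ < ‖(p : E)‖ :=
    (IsUltrametricDist.norm_add_le_max _ _).trans_lt (max_lt hb1 hb2)
  rw [hsum] at hexp
  have h5 : (p : E) = -((p : E) * (m : E) * (x - 1) + (x - 1) * ∑ k ∈ Finset.range p, w k) :=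
    eq_neg_of_add_eq_zero_left hexp.symm
  have h6 : ‖(p : E)‖ < ‖(p : E)‖ := by
    nth_rewrite 1 [h5]
    rw [norm_neg]
    exact hb3
  exact lt_irrefl _ h6

/-- a `p`-th root of unity of `ℚ_p` is congruent to `1` modulo `p`. -/
theorem H1mu_cong (p : ℕ) [Fact p.Prime] (y : ℚ_[p]) (hy : y ^ p = 1) :
    ‖y - 1‖ ≤ ‖(p : ℚ_[p])‖ := by
  have hn : ‖y‖ = 1 := by
    have h1 : ‖y‖ ^ p = 1 := by rw [← norm_pow, hy, norm_one]
    exact (pow_eq_one_iff_of_nonneg (norm_nonneg _) (Fact.out : p.Prime).ne_zero).1 h1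
  let Y : ℤ_[p] := ⟨y, hn.le⟩
  have hY : Y ^ p = 1 := Subtype.ext (by simpa using hy)
  have h1 : PadicInt.toZMod (Y - 1) = 0 := by
    rw [map_sub, map_one, sub_eq_zero, ← ZMod.pow_card (PadicInt.toZMod Y), ← map_pow, hY, map_one]
  have h2 : Y - 1 ∈ IsLocalRing.maximalIdeal ℤ_[p] := by
    rw [← PadicInt.ker_toZMod]
    exact h1
  rw [PadicInt.maximalIdeal_eq_span_p, Ideal.mem_span_singleton] at h2
  obtain ⟨c, hc⟩ := h2
  have h3 : y - 1 = (p : ℚ_[p]) * (c : ℚ_[p]) := by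
    have := congrArg Subtype.val hc
    simpa using this
  rw [h3, norm_mul]
  exact mul_le_of_le_one_right (norm_nonneg _) c.2

theorem H1mu_padic (p : ℕ) [Fact p.Prime] (hp2 : p ≠ 2) (y : ℚ_[p]) (hy : y ^ p = 1) : y = 1 := by
  have hp : p.Prime := Fact.out
  refine H1mu_no_root p hp hp2 (by exact_mod_cast hp.ne_zero) ?_ (H1mu_cong p y hy) hy
  rw [Padic.norm_p]
  exact inv_lt_one_of_one_lt₀ (by exact_mod_cast hp.one_lt)

theorem H1mu_card_roots (p : ℕ) [Fact p.Prime] (hp2 : p ≠ 2) :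
    Nat.card {z : (PadicAlgCl p)ˣ // z ^ p = 1 ∧ z ∈ fixedU (Gq p) (PadicAlgCl p)} = 1 := by
  rw [Nat.card_eq_one_iff_unique]
  refine ⟨⟨?_⟩, ⟨⟨1, one_pow _, one_mem _⟩⟩⟩
  have key : ∀ z : {z : (PadicAlgCl p)ˣ // z ^ p = 1 ∧ z ∈ fixedU (Gq p) (PadicAlgCl p)},
      z.1 = 1 := by
    rintro ⟨z, hz1, hz2⟩
    obtain ⟨y, hy⟩ := LN_fixed_mem p (z : PadicAlgCl p)
      ((towerH1card_mem_fixedU (Gq p) (PadicAlgCl p)).1 hz2)
    have hyp : y ^ p = 1 := by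
      apply (algebraMap ℚ_[p] (PadicAlgCl p)).injective
      rw [map_pow, hy, map_one, ← Units.val_pow_eq_pow_val, hz1, Units.val_one]
    apply Units.ext
    show (z : PadicAlgCl p) = 1
    rw [← hy, H1mu_padic p hp2 y hyp, map_one]
  intro a b
  exact Subtype.ext ((key a).trans (key b).symm)

/-- L4. -/
theorem stmt_H1mu : Stmt_H1mu := by
  intro p _ hp2
  have hp : p.Prime := Fact.out
  have ctx := Loc.stmt_lecCtx p p
  obtain ⟨e, he1, he2, he3⟩ := ctx.emb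
  have h1 := (all_towerKummer2 (Gq p) (PadicAlgCl p) (levq p) ctx.tower p ctx.hp _ e he1 he2 he3).1
  have h2 := all_towerH1card (Gq p) (PadicAlgCl p) (levq p) ctx.tower p hp (p : PadicAlgCl p) 1
    (LN_isUnifFix_q p) (pow_one _).symm
  rw [h1, h2, H1mu_card_roots p hp2,
    LN_resCard p reps (all_towerBase (Gq p) (PadicAlgCl p) _ ctx.tower).1]
  ring

end Fermat.Agent.TW56.LocQ

end
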