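/-
TEAM TW56 -> S56, block [LOCQ], T2 : the absolute inertia group acts trivially on the residue field of `ℚ̄_q`.
-/
import Fermat.Agent.TW56.LocQ.Interface
import Fermat.Agent.CFT.Top.BridgeLevels
import Fermat.Agent.CFT.LocalBridge

set_option autoImplicit false

noncomputable section

namespace Fermat.Agent.TW56.LocQ

open _root_.Fermat.Agent.CFT.Top _root_.Fermat.Agent.CFT.Local _root_.Fermat.Agent.CFT ExtCitation

theorem InAbs_sub_le {q : ℕ} [Fact q.Prime] (a b : PadicAlgCl q) : ‖a - b‖ ≤ max ‖a‖ ‖b‖ := by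
  rw [sub_eq_add_neg, ← norm_neg b]
  exact IsUltrametricDist.norm_add_le_max _ _

theorem InAbs_nonunits {q : ℕ} [Fact q.Prime] {a : AlgebraicClosure ℚ}
    (h : a ∈ (padicPlace q).nonunits) : ‖padicEmbedding q a‖ < 1 := by
  rw [ValuationSubring.mem_nonunits_iff_or] at h
  rcases h with rfl | h
  · simp
  · rw [lb_mem_padicPlace_iff, map_inv₀, norm_inv, not_le] at h
    by_contra hcon
    rw [not_lt] at hcon
    have := inv_le_one_of_one_le₀ hcon
    linarith

/-- T2. -/
theorem stmt_InAbs (hD : Stmt_Dense) : Stmt_InAbs := by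
  intro q _ τ hτ x hx
  obtain ⟨y, hy⟩ := hD q x hx
  have hτ' := (BrLev.mem_inertia_iff _ _).1 ((mem_In q).1 hτ)
  have hιy : ‖padicEmbedding q y‖ ≤ 1 := by
    have e : padicEmbedding q y = x - (x - padicEmbedding q y) := by ring
    rw [e]
    exact (InAbs_sub_le _ _).trans (max_le hx hy.le)
  have h1 : ‖τ (padicEmbedding q y) - padicEmbedding q y‖ < 1 := by
    have := InAbs_nonunits (hτ'.2 y ((lb_mem_padicPlace_iff q).2 hιy))
    rwa [map_sub, padicEmbedding_localGaloisToGlobal] at this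
  have h2 : ‖τ (x - padicEmbedding q y)‖ < 1 := by
    have e : ‖τ (x - padicEmbedding q y)‖ = ‖x - padicEmbedding q y‖ :=
      congrArg NNReal.toReal (nnnorm_padicAlgCl_algEquiv q τ _)
    rw [e]
    exact hy
  have e : τ x - x = τ (x - padicEmbedding q y) + (τ (padicEmbedding q y) - padicEmbedding q y)
      - (x - padicEmbedding q y) := by
    rw [map_sub]
    ring
  rw [e]
  exact lt_of_le_of_lt (InAbs_sub_le _ _)
    (max_lt (lt_of_le_of_lt (IsUltrametricDist.norm_add_le_max _ _) (max_lt h2 h1)) hy)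

end Fermat.Agent.TW56.LocQ

end

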