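/-
TEAM TW56 -> S56, block [LOCQ], T3 (helper6): inertia elements of a finite level lift to the absolute
inertia group.
-/
import Fermat.Agent.TW56.LocQ.Interface
import Fermat.Agent.S14.DIC
import Fermat.Agent.CFT.LocalBridge
import Fermat.Agent.CFT.Top.BridgeLevels

set_option autoImplicit false

noncomputable section

namespace Fermat.Agent.TW56.LocQ

open _root_.Fermat.Agent.CFT.Top _root_.Fermat.Agent.CFT.Local _root_.Fermat.Agent.CFT.Pos ExtCitation
  Polynomial Matrix
open _root_.Fermat.Agent.S53 (M2)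
open _root_.Fermat.Agent.TW56.Flat (IsCoc0 IsCocChar cob conjRep)

theorem InLift_mem_nonunits (q : ℕ) [Fact q.Prime] {x : AlgebraicClosure ℚ}
    (h : ‖padicEmbedding q x‖ < 1) : x ∈ (padicPlace q).nonunits := by
  rw [ValuationSubring.mem_nonunits_iff_or]
  by_cases hx : x = 0
  · left; exact hx
  · right
    rw [_root_.Fermat.Agent.CFT.lb_mem_padicPlace_iff, map_inv₀, norm_inv]
    have h0 : 0 < ‖padicEmbedding q x‖ := norm_pos_iff.2 ((_root_.map_ne_zero _).2 hx)
    rw [not_le]
    exact (one_lt_inv₀ h0).2 h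

/-- T3. -/
theorem stmt_InLift : Stmt_InLift := by
  intro q _ U hU τ hτ
  obtain ⟨U₀, ⟨hn, F, hF, hFU⟩, rfl⟩ := hU
  have hopen : IsOpen (U₀ : Set GQ) :=
    Subgroup.isOpen_mono hFU (IntermediateField.fixingSubgroup_isOpen F)
  obtain ⟨u, hu, hin⟩ := _root_.Fermat.Agent.S14.stmt_DIC U₀ hopen hn (padicPlace q) q Fact.out
    (_root_.Fermat.Agent.CFT.padicPlace_liesOverPrime q) (localGaloisToGlobal q τ) (by
      intro b hb hfix
      apply InLift_mem_nonunits
      rw [map_sub, padicEmbedding_localGaloisToGlobal]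
      apply hτ
      · intro w hw
        rw [← padicEmbedding_localGaloisToGlobal, hfix _ hw]
      · exact (_root_.Fermat.Agent.CFT.lb_mem_padicPlace_iff q).1
          (_root_.Fermat.Agent.S54.Frob95.mem_of_isIntegral _ hb))
  have hdec : u * localGaloisToGlobal q τ ∈ (padicPlace q).decompositionSubgroup ℚ :=
    ((BrLev.mem_inertia_iff _ _).1 hin).1
  rw [← _root_.Fermat.Agent.CFT.range_localGaloisToGlobal] at hdec
  obtain ⟨τ', hτ'⟩ := hdec
  refine ⟨τ' * τ⁻¹, ?_, ?_⟩
  · show localGaloisToGlobal q (τ' * τ⁻¹) ∈ U₀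
    rw [map_mul, hτ', map_inv, mul_inv_cancel_right]
    exact hu
  · rw [inv_mul_cancel_right, mem_In, hτ']
    exact hin

end Fermat.Agent.TW56.LocQ

end
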