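/-
TEAM TW56 -> S56, block [LOCQ] (architect helper88), task LOCQ-A12 (helper77): `Stmt_NilConj`:
a nilpotent `2 × 2` matrix `N ≠ 0` is conjugate to `E₁₂`.
-/
import Fermat.Agent.TW56.LocQ.Interface

set_option autoImplicit false

namespace Fermat.Agent.TW56.LocQ

open _root_.Fermat.Agent.CFT.Top _root_.Fermat.Agent.CFT.Local _root_.Fermat.Agent.CFT.Pos ExtCitation
  Polynomial Matrix
open _root_.Fermat.Agent.S53 (M2)

/-- LOCQ-A12. -/
theorem stmt_NilConj : Stmt_NilConj := by
  intro k _ N hN hNN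
  have h00 : N 0 0 * N 0 0 + N 0 1 * N 1 0 = 0 := by
    have := congrFun (congrFun hNN 0) 0
    simpa [Matrix.mul_apply, Fin.sum_univ_two] using this
  have h01 : N 0 0 * N 0 1 + N 0 1 * N 1 1 = 0 := by
    have := congrFun (congrFun hNN 0) 1
    simpa [Matrix.mul_apply, Fin.sum_univ_two] using this
  have h10 : N 1 0 * N 0 0 + N 1 1 * N 1 0 = 0 := by
    have := congrFun (congrFun hNN 1) 0
    simpa [Matrix.mul_apply, Fin.sum_univ_two] using this
  have h11 : N 1 0 * N 0 1 + N 1 1 * N 1 1 = 0 := by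
    have := congrFun (congrFun hNN 1) 1
    simpa [Matrix.mul_apply, Fin.sum_univ_two] using this
  have hNe : N = !![N 0 0, N 0 1; N 1 0, N 1 1] := by
    ext i j
    fin_cases i <;> fin_cases j <;> rfl
  by_cases hc : N 1 0 = 0
  · by_cases hb : N 0 1 = 0
    · exfalso
      apply hN
      have ha : N 0 0 = 0 := by
        rw [hb, zero_mul, add_zero] at h00
        exact mul_self_eq_zero.1 h00
      have hd : N 1 1 = 0 := by
        rw [hb, mul_zero, zero_add] at h11
        exact mul_self_eq_zero.1 h11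
      rw [hNe, ha, hb, hc, hd]
      ext i j
      fin_cases i <;> fin_cases j <;> rfl
    · -- `v = e₂`
      refine ⟨!![(N 0 1)⁻¹, 0; -(N 1 1) * (N 0 1)⁻¹, 1], !![N 0 1, 0; N 1 1, 1], ?_, ?_⟩
      · ext i j
        fin_cases i <;> fin_cases j <;>
          simp [Matrix.mul_apply, Fin.sum_univ_two, hb]
      · have had : N 0 0 + N 1 1 = 0 := by
          have : N 0 1 * (N 0 0 + N 1 1) = 0 := by linear_combination h01
          exact (mul_eq_zero.1 this).resolve_left hb
        have hi : (N 0 1)⁻¹ * N 0 1 = 1 := inv_mul_cancel₀ hb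
        rw [hNe]
        ext i j
        fin_cases i <;> fin_cases j <;>
          simp [Matrix.mul_apply, Fin.sum_univ_two]
        · linear_combination ((N 0 1)⁻¹ * N 0 1) * had
        · exact hi
        · linear_combination (-(N 1 1 * N 0 0) - N 1 1 * N 1 1) * hi + h00 - N 0 0 * had
        · linear_combination (-(N 1 1)) * hi
  · -- `v = e₁`
    refine ⟨!![0, (N 1 0)⁻¹; 1, -(N 0 0) * (N 1 0)⁻¹], !![N 0 0, 1; N 1 0, 0], ?_, ?_⟩
    · ext i j
      fin_cases i <;> fin_cases j <;>
        simp [Matrix.mul_apply, Fin.sum_univ_two, hc]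
    · have had : N 0 0 + N 1 1 = 0 := by
        have : N 1 0 * (N 0 0 + N 1 1) = 0 := by linear_combination h10
        exact (mul_eq_zero.1 this).resolve_left hc
      have hi : (N 1 0)⁻¹ * N 1 0 = 1 := inv_mul_cancel₀ hc
      rw [hNe]
      ext i j
      fin_cases i <;> fin_cases j <;>
        simp [Matrix.mul_apply, Fin.sum_univ_two]
      · linear_combination ((N 1 0)⁻¹ * N 1 0) * had
      · exact hi
      · linear_combination (-(N 0 0 * N 0 0) - N 0 0 * N 1 1) * hi + h00 - N 0 0 * had
      · linear_combination (-(N 0 0)) * hi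

end Fermat.Agent.TW56.LocQ
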