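/-
TEAM TW56 -> S56, block [LOCQ], package A13 (helper86): the strictly ordinary count.
-/
import Fermat.Agent.TW56.LocQ.Interface
import Fermat.Agent.TW56.Flat.CaseOrd

set_option autoImplicit false

noncomputable section

namespace Fermat.Agent.TW56.LocQ

open _root_.Fermat.Agent.CFT.Top _root_.Fermat.Agent.CFT.Local _root_.Fermat.Agent.CFT.Pos ExtCitation
  Polynomial Matrix
open _root_.Fermat.Agent.S53 (M2)
open _root_.Fermat.Agent.TW56.Flat (IsCoc0 IsCocChar cob conjRep)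

/-- coboundaries are level constant. -/
theorem OrdAbs_levK_cob {k : Type} [Field k] {G : Type} [Group G] {𝒰 : LevelSys G} {r : G →* M2 k}
    (hr : LevK 𝒰 r) (X : M2 k) : LevK 𝒰 (cob r X) := by
  obtain ⟨U, hU, h⟩ := hr
  have h1 : ∀ u ∈ U, r u = 1 := by
    intro u hu
    have := h 1 u hu
    rwa [one_mul, map_one] at this
  refine ⟨U, hU, fun g u hu => ?_⟩
  unfold cob
  rw [_root_.mul_inv_rev, map_mul, map_mul, h1 u hu, h1 u⁻¹ (U.inv_mem hu), mul_one, one_mul]

/-- **A13.** -/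
theorem stmt_OrdAbs (hNilConj : Stmt_NilConj) (hConjZ : Stmt_ConjZ) (hOrdTri : Stmt_OrdTri) :
    Stmt_OrdAbs := by
  intro k _ _ G _ 𝒰 r η N hr hN hNN hη d hfin hcard
  refine ⟨fun X => ?_, ?_⟩
  · refine ⟨⟨Flat.Ord_isCoc0_cob r X, OrdAbs_levK_cob hr X⟩, X, fun g => ⟨0, ?_⟩⟩
    rw [sub_self, zero_smul]
  · obtain ⟨Q, Q', h, hQ⟩ := hNilConj k N hN hNN
    have hr' : LevK 𝒰 (conjRep Q Q' h r) := hr.map (fun X => Q * X * Q')
    have hη' : ∀ g, conjRep Q Q' h r g * !![0, 1; 0, 0]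
        = (η g : k) • (!![0, 1; 0, 0] * conjRep Q Q' h r g) := by
      intro g
      rw [← hQ]
      show Q * r g * Q' * (Q * N * Q') = (η g : k) • (Q * N * Q' * (Q * r g * Q'))
      have e1 : Q * r g * Q' * (Q * N * Q') = Q * (r g * N) * Q' := by
        calc Q * r g * Q' * (Q * N * Q') = Q * r g * (Q' * Q) * N * Q' := by
              simp only [Matrix.mul_assoc]
          _ = Q * (r g * N) * Q' := by rw [h]; simp only [Matrix.mul_assoc, Matrix.one_mul]
      have e2 : Q * N * Q' * (Q * r g * Q') = Q * (N * r g) * Q' := by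
        calc Q * N * Q' * (Q * r g * Q') = Q * N * (Q' * Q) * r g * Q' := by
              simp only [Matrix.mul_assoc]
          _ = Q * (N * r g) * Q' := by rw [h]; simp only [Matrix.mul_assoc, Matrix.one_mul]
      rw [e1, e2, hη g, Matrix.mul_smul, Matrix.smul_mul]
    obtain ⟨h1, h2⟩ := hOrdTri k G 𝒰 (conjRep Q Q' h r) η hr' hη' d hfin hcard
    rw [← hQ] at h1 h2
    exact hConjZ k G 𝒰 Q Q' h r _ N h1 h2

end Fermat.Agent.TW56.LocQ

end
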