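/-
TEAM TW56 -> S56, block [LOCQ], package A11 : the strictly ordinary count, upper triangular form
(`Stmt_OrdTri`).
-/
import Fermat.Agent.TW56.LocQ.Interface

set_option autoImplicit false

noncomputable section

namespace Fermat.Agent.TW56.LocQ

open _root_.Fermat.Agent.CFT.Top _root_.Fermat.Agent.CFT.Local _root_.Fermat.Agent.CFT.Pos ExtCitation
  Polynomial Matrix
open _root_.Fermat.Agent.S53 (M2)
open _root_.Fermat.Agent.TW56.Flat (IsCoc0 IsCocChar cob conjRep)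

section

variable {k : Type} [Field k] {G : Type} [Group G]

lemma OrdTri_mul_inv (r : G →* M2 k) (g : G) : r g * r g⁻¹ = 1 := by
  rw [← map_mul, mul_inv_cancel, map_one]

lemma OrdTri_inv_mul (r : G →* M2 k) (g : G) : r g⁻¹ * r g = 1 := by
  rw [← map_mul, inv_mul_cancel, map_one]

lemma OrdTri_cob_coc (r : G →* M2 k) (X : M2 k) (σ τ : G) :
    cob r X (σ * τ) = cob r X σ + r σ * cob r X τ * r σ⁻¹ := by
  unfold cob
  rw [_root_.mul_inv_rev, map_mul, map_mul, Matrix.mul_sub, Matrix.sub_mul]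
  simp only [Matrix.mul_assoc]
  abel

lemma OrdTri_cob_add (r : G →* M2 k) (X Y : M2 k) (g : G) :
    cob r (X + Y) g = cob r X g + cob r Y g := by
  unfold cob
  rw [Matrix.mul_add, Matrix.add_mul]
  abel

lemma OrdTri_cob_smul (r : G →* M2 k) (t : k) (X : M2 k) (g : G) :
    cob r (t • X) g = t • cob r X g := by
  unfold cob
  rw [Matrix.mul_smul, Matrix.smul_mul, smul_sub]

lemma OrdTri_cob_lev {𝒰 : LevelSys G} {r : G →* M2 k} (hr : LevK 𝒰 r) (X : M2 k) :
    LevK 𝒰 (cob r X) := by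
  obtain ⟨U, hU, h⟩ := hr
  refine ⟨U, hU, fun g u hu => ?_⟩
  have h1 : r (g * u) = r g := h g u hu
  have h2 : r (g * u)⁻¹ = r g⁻¹ := by
    calc r (g * u)⁻¹ = r (g * u)⁻¹ * (r g * r g⁻¹) := by rw [OrdTri_mul_inv, mul_one]
      _ = r (g * u)⁻¹ * r (g * u) * r g⁻¹ := by rw [h1, mul_assoc]
      _ = r g⁻¹ := by rw [OrdTri_inv_mul, one_mul]
  unfold cob
  rw [h1, h2]

variable {r : G →* M2 k} {η : G →* kˣ}

lemma OrdTri_r10 (hE : ∀ g, r g * !![0, 1; 0, 0] = (η g : k) • (!![0, 1; 0, 0] * r g)) (g : G) :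
    r g 1 0 = 0 := by
  have h := congrFun (congrFun (hE g) 1) 1
  simp only [Matrix.mul_apply, Fin.sum_univ_two, Matrix.smul_apply] at h
  simpa using h

lemma OrdTri_conjE (hE : ∀ g, r g * !![0, 1; 0, 0] = (η g : k) • (!![0, 1; 0, 0] * r g)) (g : G) :
    r g * !![0, 1; 0, 0] * r g⁻¹ = (η g : k) • !![0, 1; 0, 0] := by
  rw [hE g, smul_mul_assoc, mul_assoc, OrdTri_mul_inv, mul_one]

/-- the coboundary of an upper triangular matrix is a multiple of `E₁₂`. -/
lemma OrdTri_cob_up (hE : ∀ g, r g * !![0, 1; 0, 0] = (η g : k) • (!![0, 1; 0, 0] * r g))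
    {Y : M2 k} (hY : Y 1 0 = 0) (g : G) : cob r Y g = (cob r Y g 0 1) • !![0, 1; 0, 0] := by
  have h10 := OrdTri_r10 hE g
  have h10' := OrdTri_r10 hE g⁻¹
  have h00 : r g 0 0 * r g⁻¹ 0 0 = 1 := by
    have h := congrFun (congrFun (OrdTri_mul_inv r g) 0) 0
    simpa [Matrix.mul_apply, Fin.sum_univ_two, h10'] using h
  have h11 : r g 1 1 * r g⁻¹ 1 1 = 1 := by
    have h := congrFun (congrFun (OrdTri_mul_inv r g) 1) 1
    simpa [Matrix.mul_apply, Fin.sum_univ_two, h10] using h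
  ext i j
  fin_cases i <;> fin_cases j
  · simp only [cob, Matrix.sub_apply, Matrix.mul_apply, Fin.sum_univ_two, Matrix.smul_apply,
      Fin.zero_eta, Fin.isValue, h10', hY]
    simp
    linear_combination Y 0 0 * h00
  · simp
  · simp only [cob, Matrix.sub_apply, Matrix.mul_apply, Fin.sum_univ_two, Matrix.smul_apply,
      Fin.zero_eta, Fin.mk_one, Fin.isValue, h10, h10', hY]
    simp
  · simp only [cob, Matrix.sub_apply, Matrix.mul_apply, Fin.sum_univ_two, Matrix.smul_apply,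
      Fin.mk_one, Fin.isValue, h10, hY]
    simp
    linear_combination Y 1 1 * h11

end

/-- A11. the strictly ordinary count, upper triangular form (`N = E₁₂`). -/
theorem stmt_OrdTri : Stmt_OrdTri := by
  intro k _ _ G _ 𝒰 r η hr hE d hfin hcard
  have hsurj : ∀ c : LOrdA 𝒰 r !![0, 1; 0, 0], ∃ x : ZC 𝒰 η × k,
      (fun g => x.1.1 g • (!![0, 1; 0, 0] : M2 k) + x.2 • cob r !![0, 0; 1, 0] g) = c.1 := by
    rintro ⟨c, hc, Y, hY⟩
    have hup : (Y - Y 1 0 • (!![0, 0; 1, 0] : M2 k)) 1 0 = 0 := by simp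
    have key : ∀ g, c g - Y 1 0 • cob r !![0, 0; 1, 0] g
        = ((c g - Y 1 0 • cob r !![0, 0; 1, 0] g) 0 1) • (!![0, 1; 0, 0] : M2 k) := by
      intro g
      obtain ⟨a, ha⟩ := hY g
      have h1 : cob r Y g = cob r (Y - Y 1 0 • (!![0, 0; 1, 0] : M2 k)) g
          + Y 1 0 • cob r !![0, 0; 1, 0] g := by
        rw [← OrdTri_cob_smul, ← OrdTri_cob_add, sub_add_cancel]
      have h2 : c g - Y 1 0 • cob r !![0, 0; 1, 0] g
          = (a + cob r (Y - Y 1 0 • (!![0, 0; 1, 0] : M2 k)) g 0 1) • (!![0, 1; 0, 0] : M2 k) := by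
        rw [add_smul, ← ha, ← OrdTri_cob_up hE hup g, h1]
        abel
      rw [h2]
      simp
    set f : G → k := fun g => (c g - Y 1 0 • cob r !![0, 0; 1, 0] g) 0 1 with hf
    have hfc : IsCocChar η f := by
      intro σ τ
      have h1 : c (σ * τ) - Y 1 0 • cob r !![0, 0; 1, 0] (σ * τ)
          = (c σ - Y 1 0 • cob r !![0, 0; 1, 0] σ)
            + r σ * (c τ - Y 1 0 • cob r !![0, 0; 1, 0] τ) * r σ⁻¹ := by
        rw [hc.1.coc σ τ, OrdTri_cob_coc, Matrix.mul_sub, Matrix.sub_mul, Matrix.mul_smul,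
          Matrix.smul_mul, smul_add]
        abel
      rw [key τ, Matrix.mul_smul, Matrix.smul_mul, OrdTri_conjE hE] at h1
      have h2 := congrFun (congrFun h1 0) 1
      simp only [Matrix.add_apply, Matrix.smul_apply] at h2
      show (c (σ * τ) - Y 1 0 • cob r !![0, 0; 1, 0] (σ * τ)) 0 1 = f σ + (η σ : k) * f τ
      rw [h2]
      show f σ + f τ • (η σ : k) • (!![0, 1; 0, 0] : M2 k) 0 1 = f σ + (η σ : k) * f τ
      simp
      ring
    have hfl : LevK 𝒰 f :=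
      hc.2.map₂ (OrdTri_cob_lev hr !![0, 0; 1, 0]) (fun x y => (x - Y 1 0 • y) 0 1)
    refine ⟨(⟨f, hfc, hfl⟩, Y 1 0), ?_⟩
    funext g
    show f g • (!![0, 1; 0, 0] : M2 k) + Y 1 0 • cob r !![0, 0; 1, 0] g = c g
    rw [hf, ← key g, sub_add_cancel]
  choose ζ hζ using hsurj
  have hinj : Function.Injective ζ := by
    intro c c' h
    apply Subtype.ext
    rw [← hζ c, ← hζ c', h]
  refine ⟨Finite.of_injective ζ hinj, ?_⟩
  calc Nat.card (LOrdA 𝒰 r !![0, 1; 0, 0]) ≤ Nat.card (ZC 𝒰 η × k) :=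
        Nat.card_le_card_of_injective ζ hinj
    _ = Nat.card (ZC 𝒰 η) * Nat.card k := Nat.card_prod _ _
    _ ≤ Nat.card k ^ d * Nat.card k := Nat.mul_le_mul_right _ hcard
    _ = Nat.card k ^ (d + 1) := (pow_succ _ _).symm

end Fermat.Agent.TW56.LocQ

end
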