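/-
TEAM TW56 -> S56, block [LOCQ], task LOCQ2-G3 : the output `TW56.Stmt_LocOrd`.
-/
import Fermat.Agent.TW56.LocQ.Interface

set_option autoImplicit false

noncomputable section

namespace Fermat.Agent.TW56.LocQ

open _root_.Fermat.Agent.CFT.Top _root_.Fermat.Agent.CFT.Local _root_.Fermat.Agent.CFT.Pos ExtCitation
  Polynomial Matrix
open _root_.Fermat.Agent.S53 (M2)
open _root_.Fermat.Agent.TW56.Flat (IsCoc0 IsCocChar cob conjRep)

/-- `CharP k p` from the `ZMod p`-algebra structure. -/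
theorem OutOrd_charP (p : ℕ) [Fact p.Prime] (k : Type) [Field k] [Algebra (ZMod p) k] : CharP k p :=
  charP_of_injective_algebraMap (algebraMap (ZMod p) k).injective p

theorem OutOrd_nil_ne {k : Type} [Field k] {ℓ : Fin 2 → k} (h : ℓ ≠ 0) : nil ℓ ≠ 0 := by
  intro h0
  apply h
  have e01 := congrFun (congrFun h0 0) 1
  have e10 := congrFun (congrFun h0 1) 0
  simp [nil, Matrix.vecMulVec] at e01 e10
  funext i
  fin_cases i
  · simpa using e01
  · simpa using e10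

theorem OutOrd_nil_sq {k : Type} [Field k] (ℓ : Fin 2 → k) : nil ℓ * nil ℓ = 0 := by
  ext i j
  fin_cases i <;> fin_cases j <;>
    simp [nil, Matrix.vecMulVec, Matrix.mul_apply, Fin.sum_univ_two] <;> ring

theorem OutOrd_nil_mulVec {k : Type} [Field k] (ℓ w : Fin 2 → k) :
    nil ℓ *ᵥ w = (ℓ 0 * w 1 - ℓ 1 * w 0) • ℓ := by
  funext i
  fin_cases i <;>
    simp [nil, Matrix.vecMulVec, Matrix.mulVec, dotProduct, Fin.sum_univ_two] <;> ring

theorem OutOrd_shape {k : Type} [Field k] (ℓ : Fin 2 → k) (R : M2 k) (z ω : k)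
    (h1 : ∀ w : Fin 2 → k, ∃ t : k, R *ᵥ w - z • w = t • ℓ) (h2 : R *ᵥ ℓ = (ω * z) • ℓ) :
    R * nil ℓ = ω • (nil ℓ * R) := by
  have key : ∀ w : Fin 2 → k, (R * nil ℓ) *ᵥ w = (ω • (nil ℓ * R)) *ᵥ w := by
    intro w
    obtain ⟨t, ht⟩ := h1 w
    have hw : R *ᵥ w = z • w + t • ℓ := by rw [← ht]; abel
    rw [← Matrix.mulVec_mulVec, OutOrd_nil_mulVec, Matrix.mulVec_smul, h2, Matrix.smul_mulVec,
      ← Matrix.mulVec_mulVec, hw, OutOrd_nil_mulVec]
    funext i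
    simp only [Pi.smul_apply, Pi.add_apply, smul_eq_mul]
    ring
  ext i j
  have := congrFun (key (Pi.single j 1)) i
  simpa using this

/-- **G3 : the strictly ordinary count**, helper55's contract. -/
theorem locOrd (hD : Stmt_Dict) (hZ : Stmt_ZCyc) (hT : Stmt_Tensor) (hO : Stmt_OrdAbs) :
    _root_.Fermat.Agent.TW56.Stmt_LocOrd := by
  intro p _ k _ _ _ hp2 rb ℓ hlev hord
  haveI := OutOrd_charP p k
  obtain ⟨hD1, hD2⟩ := hD k rb (pPrime p)
  let r : Gq p →* M2 k := rb.comp (localGaloisToGlobal p)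
  let χ : Gq p →* (ZMod p)ˣ := (cycloChar p).comp (localGaloisToGlobal p)
  let η : Gq p →* kˣ := (Units.map (algebraMap (ZMod p) k : ZMod p →* k)).comp χ
  have hη : ∀ g, (η g : k) = (((χ g : (ZMod p)ˣ) : ZMod p).val : k) := by
    intro g
    show algebraMap (ZMod p) k ((χ g : (ZMod p)ˣ) : ZMod p) = _
    rw [← map_natCast (algebraMap (ZMod p) k), ZMod.natCast_zmod_val]
  obtain ⟨hZ1, hZ2⟩ := hZ p hp2
  obtain ⟨hfin, hcard⟩ := hT p k (Gq p) (levq p) χ η hη 3 hZ1 hZ2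
  have hshape : ∀ g, r g * nil ℓ = (η g : k) • (nil ℓ * r g) := by
    intro g
    obtain ⟨z, _, hz1, hz2⟩ := hord.shape g
    exact OutOrd_shape ℓ _ z _ hz1 hz2
  obtain ⟨_, hfin', hcard'⟩ := hO k (Gq p) (levq p) r η (nil ℓ) (hD2 hlev) (OutOrd_nil_ne hord.ne)
    (OutOrd_nil_sq ℓ) hshape 3 hfin hcard
  have he : _root_.Fermat.Agent.TW56.LOrd rb ℓ (pPrime p) = LOrdA (levq p) r (nil ℓ) :=
    AddSubgroup.ext fun c =>
      ⟨fun h => ⟨(hD1 c).1 h.1, h.2⟩, fun h => ⟨(hD1 c).2 h.1, h.2⟩⟩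
  rw [he]
  exact ⟨hfin', hcard'⟩

end Fermat.Agent.TW56.LocQ

end
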