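/-
TEAM TW56 -> S56, block [LOCQ], task G1 : `TW56.Stmt_LocQ` (helper97).
-/
import Fermat.Agent.TW56.LocQ.Interface
import Fermat.Agent.TW56.Sel.Places
import Fermat.Agent.S54.Frob95
import Fermat.Agent.CFT.LocalBridge

set_option autoImplicit false

noncomputable section

namespace Fermat.Agent.TW56.LocQ

open _root_.Fermat.Agent.CFT.Top _root_.Fermat.Agent.CFT.Local _root_.Fermat.Agent.CFT.Pos ExtCitation
  Polynomial Matrix
open _root_.Fermat.Agent.S53 (M2)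
open _root_.Fermat.Agent.TW56.Flat (IsCoc0 IsCocChar cob conjRep)

/-- a Frobenius element at the standard place, in the image of the local Galois group. -/
theorem OutQ_exists_frob (q : ℕ) [Fact q.Prime] :
    ∃ g₀ : Gq q, (padicPlace q).IsFrobeniusAt (localGaloisToGlobal q g₀) q := by
  have hq : q.Prime := Fact.out
  obtain ⟨A', σ, hA', hσ⟩ := S54.Frob95.exists_frobenius q hq
  obtain ⟨g, hg⟩ := CFT.Num.DC_transitive CFT.GN.dictA CFT.GN.dictD hq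
    (CFT.padicPlace_liesOverPrime q) hA'
  have h1 := Sel.Places_frob_conj hg hσ
  have h2 : g⁻¹ * σ * g ∈ (localGaloisToGlobal q).range := by
    rw [CFT.range_localGaloisToGlobal]
    exact h1.mem_decompositionSubgroup
  obtain ⟨g₀, hg₀⟩ := h2
  exact ⟨g₀, hg₀ ▸ h1⟩

theorem locQ (hD : Stmt_Dict) (hQ : Stmt_QLev) (hT : Stmt_TameQ) : TW56.Stmt_LocQ := by
  intro p _ k _ _ _ _ rb q hFL _ hpq hunr hfrob
  letI : Fact (q : ℕ).Prime := ⟨q.2⟩
  haveI : CharP k p := charP_of_injective_algebraMap (algebraMap (ZMod p) k).injective p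
  obtain ⟨hD1, hD2⟩ := hD k rb q
  obtain ⟨hn, ht⟩ := hT (q : ℕ)
  obtain ⟨g₀, hg₀⟩ := OutQ_exists_frob (q : ℕ)
  obtain ⟨α, β, hαβ, hcp⟩ := hfrob _ (CFT.padicPlace_liesOverPrime (q : ℕ)) _ hg₀
  obtain ⟨h1, h2⟩ := hQ p (q : ℕ) k hpq (Gq (q : ℕ)) (levq (q : ℕ)) (In (q : ℕ)) hn ht
    (rb.comp (localGaloisToGlobal (q : ℕ))) (hD2 hFL)
    (fun s hs => hunr _ (CFT.padicPlace_liesOverPrime (q : ℕ)) _ hs) ⟨g₀, α, β, hαβ, hcp⟩
  have e : GW.ZLoc rb q = ZA (levq (q : ℕ)) (rb.comp (localGaloisToGlobal (q : ℕ))) :=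
    AddSubgroup.ext hD1
  rw [e]
  exact ⟨h1, h2⟩

end Fermat.Agent.TW56.LocQ
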