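/-
TEAM TW56 -> S56, block [LOCQ], package A2 (helper5): the unipotent count modulo `U`.
-/
import Fermat.Agent.TW56.LocQ.Interface

set_option autoImplicit false

noncomputable section

namespace Fermat.Agent.TW56.LocQ

open _root_.Fermat.Agent.CFT.Top _root_.Fermat.Agent.CFT.Local _root_.Fermat.Agent.CFT.Pos ExtCitation
  Polynomial Matrix
open _root_.Fermat.Agent.S53 (M2)
open _root_.Fermat.Agent.TW56.Flat (IsCoc0 IsCocChar cob conjRep)

section Coc

variable {k : Type} [Field k] {G : Type} [Group G] {r : G →* M2 k} {c : G → M2 k}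

theorem UniAbs_r_mul_inv (r : G →* M2 k) (g : G) : r g * r g⁻¹ = 1 := by
  rw [← map_mul, mul_inv_cancel, map_one]

theorem UniAbs_r_inv_mul (r : G →* M2 k) (g : G) : r g⁻¹ * r g = 1 := by
  rw [← map_mul, inv_mul_cancel, map_one]

theorem UniAbs_one (h : IsCoc0 r c) : c 1 = 0 := by
  have h1 := h.coc 1 1
  simp only [mul_one, map_one, inv_one, one_mul] at h1
  exact (left_eq_add.1 h1)

theorem UniAbs_mul_zero (h : IsCoc0 r c) {g g' : G} (hg : c g = 0) (hg' : c g' = 0) :
    c (g * g') = 0 := by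
  rw [h.coc, hg, hg']
  simp

theorem UniAbs_pow_zero (h : IsCoc0 r c) {g : G} (hg : c g = 0) (n : ℕ) : c (g ^ n) = 0 := by
  induction n with
  | zero => rw [pow_zero]; exact UniAbs_one h
  | succ n ih => rw [pow_succ]; exact UniAbs_mul_zero h ih hg

theorem UniAbs_pow_triv (h : IsCoc0 r c) {x : G} (hx : r x = 1) (n : ℕ) :
    c (x ^ n) = n • c x := by
  induction n with
  | zero => rw [pow_zero, zero_smul]; exact UniAbs_one h
  | succ n ih =>
    have h1 : r (x ^ n) = 1 := by rw [map_pow, hx, one_pow]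
    have h2 : r (x ^ n)⁻¹ = 1 := by
      have := UniAbs_r_mul_inv r (x ^ n)
      rwa [h1, one_mul] at this
    rw [pow_succ, h.coc, ih, h1, h2, one_mul, mul_one, succ_nsmul]

theorem UniAbs_sub {c' : G → M2 k} (h : IsCoc0 r c) (h' : IsCoc0 r c') : IsCoc0 r (c - c') where
  coc σ τ := by
    simp only [Pi.sub_apply, h.coc σ τ, h'.coc σ τ, mul_sub, sub_mul]
    abel
  tr σ := by simp only [Pi.sub_apply, Matrix.trace_sub, h.tr, h'.tr, sub_zero]

end Coc

section Mat

variable {k : Type} [Field k]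

theorem UniAbs_sq (A : M2 k) (ht : A.trace = 2) (hd : A.det = 1) : (A - 1) * (A - 1) = 0 := by
  rw [Matrix.trace_fin_two] at ht
  rw [Matrix.det_fin_two] at hd
  ext i j
  fin_cases i <;> fin_cases j <;>
    simp only [Fin.zero_eta, Fin.mk_one, Fin.isValue, Matrix.mul_apply, Fin.sum_univ_two,
      Matrix.sub_apply, Matrix.one_apply_eq, Matrix.zero_apply, ne_eq, zero_ne_one, one_ne_zero,
      not_false_eq_true, Matrix.one_apply_ne, sub_zero]
  · linear_combination (A 0 0) * ht - hd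
  · linear_combination (A 0 1) * ht
  · linear_combination (A 1 0) * ht
  · linear_combination (A 1 1) * ht - hd

theorem UniAbs_pow_p (p : ℕ) [Fact p.Prime] [CharP k p] (A : M2 k) (ht : A.trace = 2)
    (hd : A.det = 1) : A ^ p = 1 := by
  have hp : p.Prime := Fact.out
  have h1 : A = (A - 1) + 1 := by abel
  have h2 : (A - 1) ^ p = 0 := by
    obtain ⟨m, hm⟩ : ∃ m, p = m + 2 := ⟨p - 2, by have := hp.two_le; omega⟩
    rw [hm, pow_add, sq, UniAbs_sq A ht hd, mul_zero]
  rw [h1, add_pow_char_of_commute p (Commute.one_right _), h2, one_pow, zero_add]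

end Mat

/-- **A2** -/
theorem stmt_UniAbs (hM : Stmt_MatN) : Stmt_UniAbs := by
  intro p q _ _ k _ _ _ hp2 hqp G _ I U φ s₀ hIn hUn hT r hrU hrI hram T hTc
  classical
  have hp : p.Prime := Fact.out
  have hq : q.Prime := Fact.out
  have : Fintype k := Fintype.ofFinite k
  have hφ := hT.cyc
  have hs₀ := hT.mem
  have htame := hT.tame
  have hqk : (q : k) ≠ 0 := by
    intro h0
    have h1 := (CharP.cast_eq_zero_iff k p q).1 h0
    exact hqp ((Nat.prime_dvd_prime_iff_eq hp hq).1 h1).symm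
  have h2k : (2 : k) ≠ 0 := by
    intro h0
    have h1 : ((2 : ℕ) : k) = 0 := by exact_mod_cast h0
    have h2 := (CharP.cast_eq_zero_iff k p 2).1 h1
    exact hp2 ((Nat.prime_dvd_prime_iff_eq hp Nat.prime_two).1 h2)
  -- (b)
  have hb1 : ∀ x ∈ I, (∃ m : ℕ, x ^ q ^ m ∈ U) → r x = 1 := by
    rintro x hx ⟨m, hm⟩
    have h1 : (r x) ^ (q ^ m) = 1 := by rw [← map_pow, hrU _ hm]
    have h2 : (r x) ^ p = 1 := UniAbs_pow_p p (r x) (hrI x hx).1 (hrI x hx).2
    have h3 : orderOf (r x) ∣ Nat.gcd (q ^ m) p :=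
      Nat.dvd_gcd (orderOf_dvd_of_pow_eq_one h1) (orderOf_dvd_of_pow_eq_one h2)
    have h4 : Nat.gcd (q ^ m) p = 1 :=
      Nat.Coprime.pow_left m ((Nat.coprime_primes hq hp).2 hqp)
    rw [h4] at h3
    exact orderOf_eq_one_iff.1 (Nat.dvd_one.1 h3)
  have hb2 : ∀ c : G → M2 k, IsCoc0 r c → (∀ g, ∀ u ∈ U, c (g * u) = c g) →
      ∀ x ∈ I, (∃ m : ℕ, x ^ q ^ m ∈ U) → c x = 0 := by
    intro c hc hcU x hx hxm
    have hrx := hb1 x hx hxm
    obtain ⟨m, hm⟩ := hxm
    have h1 : c (x ^ q ^ m) = 0 := by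
      have := hcU 1 _ hm
      rwa [one_mul, UniAbs_one hc] at this
    rw [UniAbs_pow_triv hc hrx, ← Nat.cast_smul_eq_nsmul k] at h1
    have h2 : ((q ^ m : ℕ) : k) ≠ 0 := by
      push_cast
      exact pow_ne_zero _ hqk
    exact (smul_eq_zero.1 h1).resolve_left h2
  -- (c)
  set N : M2 k := r s₀ - 1 with hN
  have hNN : N * N = 0 := UniAbs_sq (r s₀) (hrI s₀ hs₀).1 (hrI s₀ hs₀).2
  have hN0 : N ≠ 0 := by
    intro h0
    have h1 : r s₀ = 1 := sub_eq_zero.1 h0
    obtain ⟨s, hs, hrs⟩ := hram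
    obtain ⟨n, x, hx, u, hu, hxm, rfl⟩ := htame s hs
    apply hrs
    rw [map_mul, map_mul, map_pow, h1, one_pow, hb1 x hx hxm, hrU u hu, one_mul, one_mul]
  obtain ⟨hM2, hM1⟩ := (hM k).1 N hN0 hNN
  have hM1' := hM1 h2k
  -- (e)
  have he1 : ∀ d : G → M2 k, IsCoc0 r d → (∀ g, ∀ u ∈ U, d (g * u) = d g) → d s₀ = 0 →
      ∀ s ∈ I, d s = 0 := by
    intro d hd hdU hd0 s hs
    obtain ⟨n, x, hx, u, hu, hxm, rfl⟩ := htame s hs
    rw [hdU _ u hu]
    exact UniAbs_mul_zero hd (UniAbs_pow_zero hd hd0 n) (hb2 d hd hdU x hx hxm)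
  have he2 : ∀ d : G → M2 k, IsCoc0 r d → (∀ g, ∀ u ∈ U, d (g * u) = d g) → d s₀ = 0 →
      ∀ g, d g * N = N * d g := by
    intro d hd hdU hd0 g
    have h1 : d (s₀ * g) = r s₀ * d g * r s₀⁻¹ := by rw [hd.coc, hd0, zero_add]
    have h2 : d (s₀ * g) = d g := by
      have h3 : s₀ * g = g * (g⁻¹ * s₀ * g) := by group
      have h4 : g⁻¹ * s₀ * g ∈ I := by
        have := hIn.conj_mem s₀ hs₀ g⁻¹
        rwa [inv_inv] at this
      rw [h3, hd.coc, he1 d hd hdU hd0 _ h4]
      simp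
    have h5 : d g * r s₀ = r s₀ * d g := by
      have h6 : d g * r s₀ = r s₀ * d g * r s₀⁻¹ * r s₀ := by rw [← h1, h2]
      rw [h6, mul_assoc, UniAbs_r_inv_mul, mul_one]
    rw [hN, mul_sub, sub_mul, h5, mul_one, one_mul]
  have he3 : ∀ d : G → M2 k, IsCoc0 r d → (∀ g, ∀ u ∈ U, d (g * u) = d g) → d s₀ = 0 →
      d φ = 0 → d = 0 := by
    intro d hd hdU hd0 hdφ
    funext g
    obtain ⟨n, s, hs, u, hu, rfl⟩ := hφ g
    rw [hdU _ u hu]
    exact UniAbs_mul_zero hd (UniAbs_pow_zero hd hdφ n) (he1 d hd hdU hd0 s hs)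
  -- counting
  set A₂ : Finset (M2 k) := Finset.univ.filter (fun m => m.trace = 0 ∧ (m * N).trace = 0) with hA₂
  set A₁ : Finset (M2 k) := Finset.univ.filter (fun m => m.trace = 0 ∧ m * N = N * m) with hA₁
  have cA₂ : A₂.card ≤ Nat.card k ^ 2 := by
    rw [hA₂, ← Fintype.card_subtype, ← Nat.card_eq_fintype_card]
    exact hM2
  have cA₁ : A₁.card ≤ Nat.card k := by
    rw [hA₁, ← Fintype.card_subtype, ← Nat.card_eq_fintype_card]
    exact hM1'
  have h3 := Finset.card_le_mul_card_image_of_maps_to (f := fun c : G → M2 k => c s₀)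
    (s := T) (t := A₂) (by
      intro c hc
      obtain ⟨h1, -, h2⟩ := hTc c hc
      simp only [hA₂, Finset.mem_filter, Finset.mem_univ, true_and]
      refine ⟨h1.tr s₀, ?_⟩
      have h4 := h2 s₀ hs₀
      have h5 : r s₀ = N + 1 := by rw [hN]; abel
      rw [h5, mul_add, mul_one, Matrix.trace_add, h1.tr s₀, add_zero] at h4
      exact h4) (Nat.card k) (by
      intro m _
      rcases Finset.eq_empty_or_nonempty ({c ∈ T | c s₀ = m} : Finset (G → M2 k)) with h0 | ⟨c₀, hc₀⟩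
      · rw [h0]; simp
      · refine le_trans ?_ cA₁
        simp only [Finset.mem_filter] at hc₀
        obtain ⟨g1, g2, -⟩ := hTc c₀ hc₀.1
        refine Finset.card_le_card_of_injOn (fun c => c φ - c₀ φ) ?_ ?_
        · intro c hc
          simp only [Finset.coe_filter, Set.mem_ofPred_eq] at hc
          obtain ⟨f1, f2, -⟩ := hTc c hc.1
          have hd := UniAbs_sub f1 g1
          have hdU : ∀ g, ∀ u ∈ U, (c - c₀) (g * u) = (c - c₀) g := by
            intro g u hu
            simp only [Pi.sub_apply, f2 g u hu, g2 g u hu]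
          have hd0 : (c - c₀) s₀ = 0 := by
            simp only [Pi.sub_apply, hc.2, hc₀.2, sub_self]
          simp only [hA₁, Finset.coe_filter, Finset.mem_univ, true_and, Set.mem_ofPred_eq]
          exact ⟨hd.tr φ, he2 _ hd hdU hd0 φ⟩
        · intro c hc c' hc' hcc
          simp only [Finset.coe_filter, Set.mem_ofPred_eq] at hc hc'
          obtain ⟨f1, f2, -⟩ := hTc c hc.1
          obtain ⟨f1', f2', -⟩ := hTc c' hc'.1
          have hd := UniAbs_sub f1 f1'
          have hdU : ∀ g, ∀ u ∈ U, (c - c') (g * u) = (c - c') g := by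
            intro g u hu
            simp only [Pi.sub_apply, f2 g u hu, f2' g u hu]
          have hd0 : (c - c') s₀ = 0 := by
            simp only [Pi.sub_apply, hc.2, hc'.2, sub_self]
          have hdφ : (c - c') φ = 0 := by
            simp only [Pi.sub_apply]
            have : c φ = c' φ := sub_left_injective hcc
            rw [this, sub_self]
          exact sub_eq_zero.1 (he3 _ hd hdU hd0 hdφ))
  calc T.card ≤ Nat.card k * A₂.card := h3
    _ ≤ Nat.card k * Nat.card k ^ 2 := Nat.mul_le_mul_left _ cA₂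
    _ = Nat.card k ^ 3 := by ring

end Fermat.Agent.TW56.LocQ

end
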