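/-
TEAM TW56 -> S56, block [LOCQ], package A4 (task 1723, helper53): the count at a Taylor-Wiles prime,
modulo `U`.
-/
import Fermat.Agent.TW56.LocQ.Interface
import Fermat.Agent.TW56.LocQ.UniAbs

set_option autoImplicit false

noncomputable section

namespace Fermat.Agent.TW56.LocQ

open _root_.Fermat.Agent.CFT.Top _root_.Fermat.Agent.CFT.Local _root_.Fermat.Agent.CFT.Pos ExtCitation
  Polynomial Matrix
open _root_.Fermat.Agent.S53 (M2)
open _root_.Fermat.Agent.TW56.Flat (IsCoc0 IsCocChar cob conjRep)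

section Coc

variable {k : Type} [Field k] {G : Type} [Group G] {r : G →* M2 k} {c : G → M2 k}

/-- `c (g s g⁻¹) = r g * c s * r g⁻¹` if `r s = 1`. -/
theorem QAbs_conj (h : IsCoc0 r c) (g s : G) (hs : r s = 1) :
    c (g * s * g⁻¹) = r g * c s * r g⁻¹ := by
  have h1 : c g + r g * c g⁻¹ * r g⁻¹ = 0 := by
    rw [← h.coc, mul_inv_cancel, UniAbs_one h]
  have h2 : r (g * s) = r g := by rw [map_mul, hs, mul_one]
  have h3 : r (g * s)⁻¹ = r g⁻¹ := by
    have hs' : r s⁻¹ = 1 := by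
      have := UniAbs_r_mul_inv r s
      rwa [hs, one_mul] at this
    rw [_root_.mul_inv_rev, map_mul, hs', one_mul]
  rw [h.coc (g * s) g⁻¹, h.coc g s, h2, h3]
  have h4 : r g * c g⁻¹ * r g⁻¹ = - c g := by
    rw [eq_neg_iff_add_eq_zero, add_comm]; exact h1
  rw [h4]
  abel

end Coc

/-- **A4** -/
theorem stmt_QAbs (hM : Stmt_MatN) : Stmt_QAbs := by
  intro p q _ _ k _ _ _ hpq G _ I U φ s₀ hIn hUn hT r hrU hrI hg₀ T hTc
  classical
  have hp : p.Prime := Fact.out
  have hq : q.Prime := Fact.out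
  have : Fintype k := Fintype.ofFinite k
  have hφ := hT.cyc
  have hs₀ := hT.mem
  have htame := hT.tame
  have hqk : (q : k) = 1 := by
    have h1 : ((q - 1 : ℕ) : k) = 0 := (CharP.cast_eq_zero_iff k p (q - 1)).2 hpq
    have h2 : q = (q - 1) + 1 := by have := hq.two_le; omega
    rw [h2, Nat.cast_add, h1, zero_add, Nat.cast_one]
  -- (a)
  have hb2 : ∀ c : G → M2 k, IsCoc0 r c → (∀ g, ∀ u ∈ U, c (g * u) = c g) →
      ∀ x ∈ I, (∃ m : ℕ, x ^ q ^ m ∈ U) → c x = 0 := by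
    intro c hc hcU x hx hxm
    have hrx := hrI x hx
    obtain ⟨m, hm⟩ := hxm
    have h1 : c (x ^ q ^ m) = 0 := by
      have := hcU 1 _ hm
      rwa [one_mul, UniAbs_one hc] at this
    rw [UniAbs_pow_triv hc hrx, ← Nat.cast_smul_eq_nsmul k, Nat.cast_pow, hqk, one_pow,
      one_smul] at h1
    exact h1
  -- (b)
  have hcomm : ∀ c : G → M2 k, IsCoc0 r c → (∀ g, ∀ u ∈ U, c (g * u) = c g) →
      c s₀ * r φ = r φ * c s₀ := by
    intro c hc hcU
    obtain ⟨x, hx, u, hu, hxm, hconj⟩ := hT.conj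
    have h1 : c (φ * s₀ * φ⁻¹) = r φ * c s₀ * r φ⁻¹ := QAbs_conj hc φ s₀ (hrI s₀ hs₀)
    have h2 : c (φ * s₀ * φ⁻¹) = c s₀ := by
      rw [hconj, hcU _ u hu, hc.coc, hb2 c hc hcU x hx hxm, mul_zero, zero_mul, add_zero,
        UniAbs_pow_triv hc (hrI s₀ hs₀), ← Nat.cast_smul_eq_nsmul k, hqk, one_smul]
    have h3 : c s₀ * r φ = r φ * c s₀ * r φ⁻¹ * r φ := by rw [← h1, h2]
    rw [h3, mul_assoc, UniAbs_r_inv_mul, mul_one]
  -- (c)
  obtain ⟨g₀, α, β, hαβ, hchar⟩ := hg₀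
  set R : M2 k := r g₀ with hR
  have hRpow : ∃ n : ℕ, R = r φ ^ n := by
    obtain ⟨n, s, hs, u, hu, hg⟩ := hφ g₀
    exact ⟨n, by rw [hR, hg, map_mul, map_mul, map_pow, hrI s hs, hrU u hu, mul_one, mul_one]⟩
  have hcommR : ∀ c : G → M2 k, IsCoc0 r c → (∀ g, ∀ u ∈ U, c (g * u) = c g) →
      c s₀ * R = R * c s₀ := by
    intro c hc hcU
    obtain ⟨n, hn⟩ := hRpow
    rw [hn]
    exact (Commute.pow_right (hcomm c hc hcU) n)
  have hM1 := (hM k).2.1 R α β hαβ hchar
  have hM3 := (hM k).2.2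
  -- (d)
  have he1 : ∀ d : G → M2 k, IsCoc0 r d → (∀ g, ∀ u ∈ U, d (g * u) = d g) → d s₀ = 0 →
      ∀ s ∈ I, d s = 0 := by
    intro d hd hdU hd0 s hs
    obtain ⟨n, x, hx, u, hu, hxm, rfl⟩ := htame s hs
    rw [hdU _ u hu]
    exact UniAbs_mul_zero hd (UniAbs_pow_zero hd hd0 n) (hb2 d hd hdU x hx hxm)
  have he3 : ∀ d : G → M2 k, IsCoc0 r d → (∀ g, ∀ u ∈ U, d (g * u) = d g) → d s₀ = 0 →
      d φ = 0 → d = 0 := by
    intro d hd hdU hd0 hdφ
    funext g
    obtain ⟨n, s, hs, u, hu, rfl⟩ := hφ g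
    rw [hdU _ u hu]
    exact UniAbs_mul_zero hd (UniAbs_pow_zero hd hdφ n) (he1 d hd hdU hd0 s hs)
  -- counting
  set A₁ : Finset (M2 k) := Finset.univ.filter (fun m => m.trace = 0 ∧ m * R = R * m) with hA₁
  set A₃ : Finset (M2 k) := Finset.univ.filter (fun m => m.trace = 0) with hA₃
  have cA₁ : A₁.card ≤ Nat.card k := by
    rw [hA₁, ← Fintype.card_subtype, ← Nat.card_eq_fintype_card]
    exact hM1
  have cA₃ : A₃.card ≤ Nat.card k ^ 3 := by
    rw [hA₃, ← Fintype.card_subtype, ← Nat.card_eq_fintype_card]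
    exact hM3
  have h3 := Finset.card_le_mul_card_image_of_maps_to (f := fun c : G → M2 k => c s₀)
    (s := T) (t := A₁) (by
      intro c hc
      obtain ⟨h1, h2⟩ := hTc c hc
      simp only [hA₁, Finset.mem_filter, Finset.mem_univ, true_and]
      exact ⟨h1.tr s₀, hcommR c h1 h2⟩) (Nat.card k ^ 3) (by
      intro m _
      rcases Finset.eq_empty_or_nonempty ({c ∈ T | c s₀ = m} : Finset (G → M2 k)) with h0 | ⟨c₀, hc₀⟩
      · rw [h0]; simp
      · refine le_trans ?_ cA₃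
        simp only [Finset.mem_filter] at hc₀
        obtain ⟨g1, g2⟩ := hTc c₀ hc₀.1
        refine Finset.card_le_card_of_injOn (fun c => c φ - c₀ φ) ?_ ?_
        · intro c hc
          simp only [Finset.coe_filter, Set.mem_ofPred_eq] at hc
          obtain ⟨f1, f2⟩ := hTc c hc.1
          have hd := UniAbs_sub f1 g1
          simp only [hA₃, Finset.coe_filter, Finset.mem_univ, true_and, Set.mem_ofPred_eq]
          exact hd.tr φ
        · intro c hc c' hc' hcc
          simp only [Finset.coe_filter, Set.mem_ofPred_eq] at hc hc'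
          obtain ⟨f1, f2⟩ := hTc c hc.1
          obtain ⟨f1', f2'⟩ := hTc c' hc'.1
          have hd := UniAbs_sub f1 f1'
          have hdU : ∀ g, ∀ u ∈ U, (c - c') (g * u) = (c - c') g := by
            intro g u hu
            simp only [Pi.sub_apply, f2 g u hu, f2' g u hu]
          have hd0 : (c - c') s₀ = 0 := by
            simp only [Pi.sub_apply, hc.2, hc'.2, sub_self]
          have hdφ : (c - c') φ = 0 := by
            simp only [Pi.sub_apply]
            have : c φ = c' φ := sub_left_injective hcc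
            rw [this, sub_self]
          exact sub_eq_zero.1 (he3 _ hd hdU hd0 hdφ))
  calc T.card ≤ Nat.card k ^ 3 * A₁.card := h3
    _ ≤ Nat.card k ^ 3 * Nat.card k := Nat.mul_le_mul_left _ cA₁
    _ = Nat.card k ^ 4 := by ring

end Fermat.Agent.TW56.LocQ

end
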