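/-
TEAM TW56 -> S56, block [LOCQ] (architect helper88).  A4' : the count at a Taylor-Wiles prime (helper9).
-/
import Fermat.Agent.TW56.LocQ.Interface

set_option autoImplicit false

noncomputable section

namespace Fermat.Agent.TW56.LocQ

open _root_.Fermat.Agent.CFT.Top _root_.Fermat.Agent.CFT.Local _root_.Fermat.Agent.CFT.Pos ExtCitation
  Polynomial Matrix
open _root_.Fermat.Agent.S53 (M2)
open _root_.Fermat.Agent.TW56.Flat (IsCoc0 IsCocChar cob conjRep)

/-- finitely many level constant functions have a common level. -/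
theorem QLev_common {G : Type} [Group G] (𝒰 : LevelSys G) {X : Type} (T : Finset (G → X))
    (h : ∀ c ∈ T, LevK 𝒰 c) : ∃ U ∈ 𝒰.S, ∀ c ∈ T, ∀ g : G, ∀ u ∈ U, c (g * u) = c g := by
  classical
  induction T using Finset.induction_on with
  | empty =>
    obtain ⟨U, hU⟩ := 𝒰.ne
    exact ⟨U, hU, fun c hc => absurd hc (Finset.notMem_empty c)⟩
  | insert a s ha ih =>
    obtain ⟨U, hU, h1⟩ := ih (fun c hc => h c (Finset.mem_insert_of_mem hc))
    obtain ⟨V, hV, h2⟩ := h a (Finset.mem_insert_self a s)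
    obtain ⟨W, hW, hWU, hWV⟩ := 𝒰.dir U hU V hV
    refine ⟨W, hW, fun c hc g u hu => ?_⟩
    rcases Finset.mem_insert.1 hc with rfl | hc
    · exact h2 g u (hWV hu)
    · exact h1 c hc g u (hWU hu)

theorem stmt_QLev (hF : Stmt_FinBound) (hQ : Stmt_QAbs) : Stmt_QLev := by
  intro p q _ _ k _ _ _ hpq G _ 𝒰 I hI htame r hr hrI hg₀
  refine hF (G → M2 k) (ZA 𝒰 r : Set (G → M2 k)) (Nat.card k ^ 4) (fun T hT => ?_)
  obtain ⟨U, hU, h1⟩ := QLev_common 𝒰 T (fun c hc => (hT hc).2)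
  obtain ⟨V, hV, h2⟩ := hr
  obtain ⟨W, hW, hWU, hWV⟩ := 𝒰.dir U hU V hV
  obtain ⟨φ, s₀, ht⟩ := htame W hW
  refine hQ p q k hpq G I W φ s₀ hI (𝒰.normal W hW) ht r (fun u hu => ?_) hrI hg₀ T
    (fun c hc => ⟨(hT hc).1, fun g u hu => h1 c hc g u (hWU hu)⟩)
  have h3 := h2 1 u (hWV hu)
  rwa [one_mul, map_one] at h3

end Fermat.Agent.TW56.LocQ

end
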