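/-
TEAM TW56 -> S56, block [LOCQ].  The two abstract halves of T4 (`Stmt_TameQ`):
* `X0_tame` : helper61's [TAME] block repackaged for a layer `LocAct Γ L` with residue field of the base `𝔽_q`;
* `X0_lift` : lifting the structure from `G ⧸ U` to `TameMod q I U φ s₀`.
-/
import Fermat.Agent.TW56.LocQ.Interface
import Fermat.Agent.TW56.Count.TameSub
import Fermat.Agent.TW56.Count.TameResFix
import Fermat.Agent.TW56.Count.TameFrob
import Fermat.Agent.TW56.Count.TameCyc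
import Fermat.Agent.TW56.Count.TameConj
import Fermat.Agent.TW56.Count.TameWild

set_option autoImplicit false

noncomputable section

namespace Fermat.Agent.TW56.LocQ

open _root_.Fermat.Agent.CFT.Top _root_.Fermat.Agent.CFT.Local

/-- the tame structure of a finite group `Γ` with respect to a predicate `J` ("inertia"). -/
structure X0_Tame {Γ : Type} [Group Γ] (q : ℕ) (J : Γ → Prop) (φ s₀ : Γ) : Prop where
  mem : J s₀
  cyc : ∀ g : Γ, ∃ n : ℕ, ∃ s : Γ, J s ∧ g = φ ^ n * s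
  tame : ∀ s : Γ, J s → ∃ n : ℕ, ∃ x : Γ, J x ∧ (∃ m : ℕ, x ^ q ^ m = 1) ∧ s = s₀ ^ n * x
  conj : ∃ x : Γ, J x ∧ (∃ m : ℕ, x ^ q ^ m = 1) ∧ φ * s₀ * φ⁻¹ = s₀ ^ q * x

/-- wild elements are inertia elements. -/
lemma X0_isIn_of_isWild {Γ L : Type} [Group Γ] [NormedField L] [MulSemiringAction Γ L] {g : Γ}
    (h : Count.IsWild L g) : Count.IsIn L g := by
  intro x hx
  by_cases hx0 : x = 0
  · subst hx0
    simp
  · exact (h x hx0).trans_le hx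

/-- **[TAME] repackaged.** -/
theorem X0_tame (Γ L : Type) [Group Γ] [Finite Γ] [NormedField L] [MulSemiringAction Γ L]
    (hL : LocAct Γ L) (q : ℕ) (hq : q.Prime) (hq1 : ‖(q : L)‖ < 1)
    (hres : resCard (FixedPoints.subfield Γ L) = q) :
    ∃ φ s₀ : Γ, X0_Tame q (Count.IsIn L) φ s₀ := by
  obtain ⟨φ, hφ, hcyc⟩ := Count.stmt_frob Count.stmt_resFix Γ L hL
  obtain ⟨s₀, hs₀, htame⟩ := Count.stmt_tameCyc Count.stmt_tameSub Count.stmt_thetaNorm Γ L hL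
  rw [hres] at hφ
  obtain ⟨u, hu, hconj⟩ :=
    Count.stmt_frobConj Count.stmt_tameSub Count.stmt_thetaNorm Γ L hL φ q hφ s₀ hs₀
  have hw := Count.stmt_wildP Count.stmt_tameSub Γ L hL q hq hq1
  refine ⟨φ, s₀, hs₀, hcyc, fun s hs => ?_, u, X0_isIn_of_isWild hu, hw u hu, hconj⟩
  obtain ⟨n, x, hx, rfl⟩ := htame s hs
  exact ⟨n, x, X0_isIn_of_isWild hx, hw x hx, rfl⟩

/-- **lifting the tame structure** from `G ⧸ U` to `G`. -/
theorem X0_lift {G : Type} [Group G] (q : ℕ) (I U : Subgroup G) [U.Normal] (J : G ⧸ U → Prop)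
    (hin : ∀ s ∈ I, J (s : G ⧸ U)) (hlift : ∀ τ : G, J (τ : G ⧸ U) → ∃ w ∈ U, w * τ ∈ I)
    (φ' s₀' : G ⧸ U) (h : X0_Tame q J φ' s₀') : ∃ φ s₀ : G, TameMod q I U φ s₀ := by
  -- every element of `J` is the class of an element of `I`
  have hrep : ∀ x' : G ⧸ U, J x' → ∃ x ∈ I, (x : G ⧸ U) = x' := by
    intro x' hx'
    obtain ⟨τ, rfl⟩ := QuotientGroup.mk_surjective x'
    obtain ⟨w, hw, hwτ⟩ := hlift τ hx'
    refine ⟨w * τ, hwτ, ?_⟩
    rw [QuotientGroup.mk_mul, (QuotientGroup.eq_one_iff w).2 hw, one_mul]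
  -- equality in the quotient
  have hquot : ∀ a b : G, (a : G ⧸ U) = (b : G ⧸ U) → ∃ u ∈ U, a = b * u := by
    intro a b hab
    refine ⟨b⁻¹ * a, QuotientGroup.eq.1 hab.symm, ?_⟩
    group
  have hpow : ∀ (x : G) (m : ℕ), ((x : G ⧸ U)) ^ q ^ m = 1 → x ^ q ^ m ∈ U := by
    intro x m hx
    rw [← QuotientGroup.mk_pow] at hx
    exact (QuotientGroup.eq_one_iff _).1 hx
  obtain ⟨φ, rfl⟩ := QuotientGroup.mk_surjective φ'
  obtain ⟨s₀, hs₀, rfl⟩ := hrep s₀' h.mem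
  refine ⟨φ, s₀, hs₀, fun g => ?_, fun s hs => ?_, ?_⟩
  · obtain ⟨n, s', hs', hg⟩ := h.cyc (g : G ⧸ U)
    obtain ⟨s, hs, rfl⟩ := hrep s' hs'
    obtain ⟨u, hu, e⟩ := hquot g (φ ^ n * s) (by rw [hg]; rfl)
    exact ⟨n, s, hs, u, hu, e⟩
  · obtain ⟨n, x', hx', ⟨m, hm⟩, hc⟩ := h.tame (s : G ⧸ U) (hin s hs)
    obtain ⟨x, hx, rfl⟩ := hrep x' hx'
    obtain ⟨u, hu, e⟩ := hquot s (s₀ ^ n * x) (by rw [hc]; rfl)
    exact ⟨n, x, hx, u, hu, ⟨m, hpow x m hm⟩, e⟩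
  · obtain ⟨x', hx', ⟨m, hm⟩, hc⟩ := h.conj
    obtain ⟨x, hx, rfl⟩ := hrep x' hx'
    obtain ⟨u, hu, e⟩ := hquot (φ * s₀ * φ⁻¹) (s₀ ^ q * x) (by
      rw [QuotientGroup.mk_mul, QuotientGroup.mk_mul, QuotientGroup.mk_inv, hc]; rfl)
    exact ⟨x, hx, u, hu, ⟨m, hpow x m hm⟩, e⟩

end Fermat.Agent.TW56.LocQ

end
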