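/-
TEAM TW56 -> S56, block [LOCQ] (interface v2).  T4 `Stmt_TameQ` : the tame structure of `G_{ℚ_q}` modulo
every level.  (helper70, task 1716; the two abstract halves are helper47's `LocQ/X0.lean`.)
-/
import Fermat.Agent.TW56.LocQ.X0
import Fermat.Agent.TW56.LocQ.Dense
import Fermat.Agent.TW56.LocQ.InAbs
import Fermat.Agent.TW56.LocQ.InLift
import Fermat.Agent.CFT.Local.Final

set_option autoImplicit false

noncomputable section

namespace Fermat.Agent.TW56.LocQ

open _root_.Fermat.Agent.CFT.Top _root_.Fermat.Agent.CFT.Local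

attribute [local instance] quotAct

/-- the absolute inertia group is normal. -/
theorem TameQ_normal (q : ℕ) [Fact q.Prime] : (In q).Normal := by
  refine ⟨fun τ hτ g => ?_⟩
  rw [mem_In] at hτ ⊢
  obtain ⟨i, hi, hiτ⟩ := hτ
  have hn : ((padicPlace q).inertiaSubgroup ℚ).Normal := by
    unfold ValuationSubring.inertiaSubgroup
    infer_instance
  let d : (padicPlace q).decompositionSubgroup ℚ :=
    ⟨localGaloisToGlobal q g, localGaloisToGlobal_mem_decompositionSubgroup q g⟩
  refine ⟨d * i * d⁻¹, hn.conj_mem i hi d, ?_⟩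
  rw [map_mul, map_mul, map_inv, map_mul, map_mul, map_inv, hiτ]
  rfl

theorem stmt_TameQ (hA : Stmt_InAbs) (hLi : Stmt_InLift) : Stmt_TameQ := by
  intro q _
  refine ⟨TameQ_normal q, fun U hU => ?_⟩
  have hq : q.Prime := Fact.out
  have hUn : U.Normal := (levq q).normal U hU
  have hUf : U.FiniteIndex := (levq q).fin U hU
  have hfin : Finite (Gq q ⧸ U) := Subgroup.finite_quotient_of_finiteIndex
  have hT : LocTower (Gq q) (PadicAlgCl q) (levq q) := all_padicTower q
  have hL : LocAct (Gq q ⧸ U) (FixedPoints.subfield U (PadicAlgCl q)) := hT.layer U hU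
  obtain ⟨hbase, -, hres⟩ := all_towerBase (Gq q) (PadicAlgCl q) (levq q) hT
  have hres' : resCard (FixedPoints.subfield (Gq q ⧸ U) (FixedPoints.subfield U (PadicAlgCl q)))
      = q := by
    rw [hres U hU]
    exact LN_resCard q reps hbase
  have hq1 : ‖((q : ℕ) : FixedPoints.subfield U (PadicAlgCl q))‖ < 1 := by
    have e : ‖((q : ℕ) : FixedPoints.subfield U (PadicAlgCl q))‖ = ‖((q : ℕ) : PadicAlgCl q)‖ := by
      show ‖((((q : ℕ) : FixedPoints.subfield U (PadicAlgCl q)) : PadicAlgCl q))‖ = _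
      norm_cast
    rw [e, LN_norm_q]
    exact inv_lt_one_of_one_lt₀ (by exact_mod_cast hq.one_lt)
  obtain ⟨φ', s₀', h⟩ := X0_tame (Gq q ⧸ U) (FixedPoints.subfield U (PadicAlgCl q)) hL q hq hq1 hres'
  refine X0_lift q (In q) U (Count.IsIn (FixedPoints.subfield U (PadicAlgCl q))) ?_ ?_ φ' s₀' h
  · intro s hs x hx
    exact hA q s hs (x : PadicAlgCl q) hx
  · intro τ hτ
    refine hLi q U hU τ fun x hxU hx => ?_
    exact hτ ⟨x, fun u => hxU u.1 u.2⟩ hx

end Fermat.Agent.TW56.LocQ

end
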