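/-
TEAM TW56 -> S56, block [LOCQ], task LOCQ-A8 (helper83): from `𝔽_p` to `k`.
-/
import Fermat.Agent.TW56.LocQ.Interface

set_option autoImplicit false

noncomputable section

namespace Fermat.Agent.TW56.LocQ

open _root_.Fermat.Agent.CFT.Top _root_.Fermat.Agent.CFT.Local ExtCitation
open _root_.Fermat.Agent.S53 (M2)
open _root_.Fermat.Agent.TW56.Flat (IsCoc0 IsCocChar cob)

/-- A8. from `𝔽_p` to `k`. -/
theorem stmt_Tensor : Stmt_Tensor := by
  intro p _ k _ _ _ G _ 𝒰 χ η hη d hfin hcard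
  let _ : Algebra (ZMod p) k := ZMod.algebra k p
  obtain ⟨n, hn⟩ : ∃ n, n = Module.finrank (ZMod p) k := ⟨_, rfl⟩
  obtain ⟨e⟩ : Nonempty (k ≃ₗ[ZMod p] (Fin n → ZMod p)) := by
    rw [hn]
    exact ⟨(Module.finBasis (ZMod p) k).equivFun⟩
  have hk : Nat.card k = p ^ n := by
    rw [Module.natCard_eq_pow_finrank (K := ZMod p), Nat.card_zmod, hn]
  have hmul : ∀ (a : ZMod p) (x : k), ((a.val : ℕ) : k) * x = a • x := by
    intro a x
    rw [← nsmul_eq_mul, ← Nat.cast_smul_eq_nsmul (ZMod p), ZMod.natCast_zmod_val]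
  have hmem : ∀ f ∈ ZC 𝒰 η, ∀ i, (fun g => e (f g) i) ∈ ZC 𝒰 χ := by
    rintro f ⟨hf, hl⟩ i
    refine ⟨fun σ τ => ?_, hl.map (fun x => e x i)⟩
    show e (f (σ * τ)) i = e (f σ) i + (χ σ : ZMod p) * e (f τ) i
    rw [hf σ τ, hη, hmul, map_add, map_smul]
    rfl
  let Φ : ZC 𝒰 η → (Fin n → ZC 𝒰 χ) := fun f i => ⟨fun g => e (f.1 g) i, hmem f.1 f.2 i⟩
  have hinj : Function.Injective Φ := by
    intro f f' h
    apply Subtype.ext
    funext g
    apply e.injective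
    funext i
    exact congrFun (congrArg Subtype.val (congrFun h i)) g
  refine ⟨Finite.of_injective Φ hinj, ?_⟩
  calc Nat.card (ZC 𝒰 η) ≤ Nat.card (Fin n → ZC 𝒰 χ) := Nat.card_le_card_of_injective Φ hinj
    _ = Nat.card (ZC 𝒰 χ) ^ n := by rw [Nat.card_fun, Nat.card_fin]
    _ ≤ (p ^ d) ^ n := Nat.pow_le_pow_left hcard n
    _ = Nat.card k ^ d := by rw [hk, ← pow_mul, ← pow_mul, mul_comm]

end Fermat.Agent.TW56.LocQ

end
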