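/-
TEAM TW56 -> S56, block [LOCQ] (architect helper88).  A3 : the unipotent count (helper30).
-/
import Fermat.Agent.TW56.LocQ.Interface
import Fermat.Agent.TW56.Flat.CaseOrd

set_option autoImplicit false

noncomputable section

namespace Fermat.Agent.TW56.LocQ

open _root_.Fermat.Agent.CFT.Top _root_.Fermat.Agent.CFT.Local _root_.Fermat.Agent.CFT.Pos ExtCitation
  Polynomial Matrix
open _root_.Fermat.Agent.S53 (M2)
open _root_.Fermat.Agent.TW56.Flat (IsCoc0 IsCocChar cob conjRep)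

/-- finitely many level constant functions have a common level. -/
theorem UniLev_common {G : Type} [Group G] (𝒰 : LevelSys G) {X : Type} (T : Finset (G → X))
    (h : ∀ c ∈ T, LevK 𝒰 c) : ∃ U ∈ 𝒰.S, ∀ c ∈ T, ∀ g : G, ∀ u ∈ U, c (g * u) = c g := by
  classical
  induction T using Finset.induction_on with
  | empty =>
    obtain ⟨U, hU⟩ := 𝒰.ne
    exact ⟨U, hU, fun c hc => absurd hc (Finset.notMem_empty c)⟩
  | insert a s ha ih =>
    obtain ⟨U, hU, h1⟩ := ih (fun c hc => h c (Finset.mem_insert_of_mem hc))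
    obtain ⟨V, hV, h2⟩ := h a (Finset.mem_insert_self a s)
    obtain ⟨W, hW, hWU, hWV⟩ := 𝒰.dir U hU V hV
    refine ⟨W, hW, fun c hc g u hu => ?_⟩
    rcases Finset.mem_insert.1 hc with rfl | hc
    · exact h2 g u (hWV hu)
    · exact h1 c hc g u (hWU hu)

/-- a coboundary of a level constant representation is level constant. -/
theorem UniLev_cob_lev {k : Type} [Field k] {G : Type} [Group G] (𝒰 : LevelSys G) (r : G →* M2 k)
    (hr : LevK 𝒰 r) (X : M2 k) : LevK 𝒰 (cob r X) := by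
  obtain ⟨U, hU, h⟩ := hr
  refine ⟨U, hU, fun g u hu => ?_⟩
  have h1 : r u = 1 := by
    have h3 := h 1 u hu
    rwa [one_mul, map_one] at h3
  have h2 : r u⁻¹ = 1 := by
    have h4 : r u⁻¹ * r u = 1 := by rw [← map_mul, inv_mul_cancel, map_one]
    rwa [h1, mul_one] at h4
  unfold cob
  rw [_root_.mul_inv_rev, map_mul, map_mul, h1, h2, mul_one, one_mul]

/-- the trace condition for a coboundary. -/
theorem UniLev_cob_tr {k : Type} [Field k] {G : Type} [Group G] (r : G →* M2 k) (X : M2 k) (s : G) :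
    (cob r X s * r s).trace = 0 := by
  have h4 : r s⁻¹ * r s = 1 := by rw [← map_mul, inv_mul_cancel, map_one]
  unfold cob
  rw [sub_mul, mul_assoc, h4, mul_one, Matrix.trace_sub, Matrix.trace_mul_comm, sub_self]

theorem stmt_UniLev (hFinBound : Stmt_FinBound) (hUniAbs : Stmt_UniAbs) : Stmt_UniLev := by
  intro p q _ _ k _ _ _ hp2 hqp G _ 𝒰 I hI htame r hr htr hne
  refine ⟨fun X => ⟨⟨Flat.Ord_isCoc0_cob r X, UniLev_cob_lev 𝒰 r hr X⟩,
    fun s _ => UniLev_cob_tr r X s⟩, ?_⟩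
  refine hFinBound (G → M2 k) (LUniA 𝒰 I r : Set (G → M2 k)) (Nat.card k ^ 3) (fun T hT => ?_)
  obtain ⟨U, hU, h1⟩ := UniLev_common 𝒰 T (fun c hc => (hT hc).1.2)
  obtain ⟨V, hV, h2⟩ := hr
  obtain ⟨W, hW, hWU, hWV⟩ := 𝒰.dir U hU V hV
  obtain ⟨φ, s₀, ht⟩ := htame W hW
  refine hUniAbs p q k hp2 hqp G I W φ s₀ hI (𝒰.normal W hW) ht r (fun u hu => ?_) htr hne T
    (fun c hc => ⟨(hT hc).1.1, fun g u hu => h1 c hc g u (hWU hu), (hT hc).2⟩)
  have h3 := h2 1 u (hWV hu)
  rwa [one_mul, map_one] at h3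

end Fermat.Agent.TW56.LocQ

end
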