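/-
TEAM TW56 -> S56, block [LOCQ], task LOCQ-G2 (helper64): the output `TW56.Stmt_LocUnip`.
-/
import Fermat.Agent.TW56.LocQ.Interface

set_option autoImplicit false

noncomputable section

namespace Fermat.Agent.TW56.LocQ

open _root_.Fermat.Agent.CFT.Top _root_.Fermat.Agent.CFT.Local _root_.Fermat.Agent.CFT.Pos ExtCitation
  Polynomial Matrix
open _root_.Fermat.Agent.S53 (M2)
open _root_.Fermat.Agent.TW56.Flat (IsCoc0 IsCocChar cob conjRep)

/-- `CharP k p` from the `ZMod p`-algebra structure. -/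
theorem UniOut_charP (p : ℕ) [Fact p.Prime] (k : Type) [Field k] [Algebra (ZMod p) k] : CharP k p :=
  charP_of_injective_algebraMap (algebraMap (ZMod p) k).injective p

theorem locUnip (hD : Stmt_Dict) (hU : Stmt_UniLev) (hT : Stmt_TameQ) : TW56.Stmt_LocUnip := by
  intro p _ k _ _ _ hp2 rb v hlev hvp huni hne
  have := UniOut_charP p k
  letI : Fact (v : ℕ).Prime := ⟨v.2⟩
  obtain ⟨hD1, hD2⟩ := hD k rb v
  obtain ⟨hnor, htame⟩ := hT (v : ℕ)
  obtain ⟨-, hfin, hcard⟩ := hU p (v : ℕ) k hp2 hvp (Gq (v : ℕ)) (levq (v : ℕ)) (In (v : ℕ)) hnor htame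
    (rb.comp (localGaloisToGlobal (v : ℕ))) (hD2 hlev) (fun s hs => huni s hs)
    (by
      obtain ⟨g, hg, hg1⟩ := hne
      exact ⟨g, hg, hg1⟩)
  have he : (LUnip rb v : AddSubgroup (Gq (v : ℕ) → M2 k))
      = LUniA (levq (v : ℕ)) (In (v : ℕ)) (rb.comp (localGaloisToGlobal (v : ℕ))) := by
    ext c
    constructor
    · rintro ⟨h1, h2⟩
      exact ⟨(hD1 c).1 h1, fun s hs => h2 s hs⟩
    · rintro ⟨h1, h2⟩
      exact ⟨(hD1 c).2 h1, fun s hs => h2 s hs⟩
  have hfin' : Finite (LUnip rb v : AddSubgroup (Gq (v : ℕ) → M2 k)) := by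
    rw [he]
    exact hfin
  have hcard' : Nat.card (LUnip rb v : AddSubgroup (Gq (v : ℕ) → M2 k)) ≤ Nat.card k ^ 3 := by
    rw [he]
    exact hcard
  exact ⟨hfin', hcard'⟩

end Fermat.Agent.TW56.LocQ

end
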