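/-
TEAM TW56 -> S56, block [LOCQ] (architect helper88).  L5 : `#Z¹(G_{ℚ_p}, 𝔽_p(ω)) ≤ p³` (helper9).
-/
import Fermat.Agent.TW56.LocQ.Interface

set_option autoImplicit false

noncomputable section

namespace Fermat.Agent.TW56.LocQ

open _root_.Fermat.Agent.CFT.Top _root_.Fermat.Agent.CFT.Local _root_.Fermat.Agent.CFT.Pos ExtCitation
  Polynomial Matrix

/-- the restriction of `μ_p` to `G_{ℚ_p}` is one dimensional with action through `ω`. -/
theorem ZCyc_isMu (p : ℕ) [Fact p.Prime] :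
    IsMu ((cycloChar p).comp (localGaloisToGlobal p))
      (Rep.res (localGaloisToGlobal p) (muRep (ZMod p) (cycloChar p))) :=
  ⟨Module.finrank_self (ZMod p), fun _ _ => rfl⟩

theorem stmt_ZCyc (hH1mu : Stmt_H1mu) (hZCH1 : Stmt_ZCH1) : Stmt_ZCyc := by
  intro p _ hp2
  have hp : p.Prime := Fact.out
  have hc := hH1mu p hp2
  have hfin : Finite (Hlc (levq p)
      (Rep.res (localGaloisToGlobal p) (muRep (ZMod p) (cycloChar p))) 1) := by
    apply Nat.finite_of_card_ne_zero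
    rw [hc]
    exact pow_ne_zero _ hp.ne_zero
  obtain ⟨h1, h2, _⟩ := hZCH1 p (Gq p) (levq p) ((cycloChar p).comp (localGaloisToGlobal p))
    (Rep.res (localGaloisToGlobal p) (muRep (ZMod p) (cycloChar p))) (ZCyc_isMu p) hfin
  refine ⟨h1, ?_⟩
  rw [hc] at h2
  calc _ ≤ p ^ 2 * p := h2
    _ = p ^ 3 := by ring

end Fermat.Agent.TW56.LocQ

end
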