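/-
TEAM TW56 -> S56, block [LOCQ] (architect helper88; assembly helper74).  ALL UNCONDITIONAL:

  all_LocQ    : TW56.Stmt_LocQ
  all_LocUnip : TW56.Stmt_LocUnip
  all_LocOrd  : TW56.Stmt_LocOrd
-/
import Fermat.Agent.TW56.LocQ.ConjZ
import Fermat.Agent.TW56.LocQ.Dense
import Fermat.Agent.TW56.LocQ.Dict
import Fermat.Agent.TW56.LocQ.FinBound
import Fermat.Agent.TW56.LocQ.H1mu
import Fermat.Agent.TW56.LocQ.InAbs
import Fermat.Agent.TW56.LocQ.InLift
import Fermat.Agent.TW56.LocQ.MatN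
import Fermat.Agent.TW56.LocQ.NilConj
import Fermat.Agent.TW56.LocQ.OrdAbs
import Fermat.Agent.TW56.LocQ.OrdTri
import Fermat.Agent.TW56.LocQ.OutOrd
import Fermat.Agent.TW56.LocQ.OutQ
import Fermat.Agent.TW56.LocQ.QAbs
import Fermat.Agent.TW56.LocQ.QLev
import Fermat.Agent.TW56.LocQ.TameQ
import Fermat.Agent.TW56.LocQ.Tensor
import Fermat.Agent.TW56.LocQ.UniAbs
import Fermat.Agent.TW56.LocQ.UniLev
import Fermat.Agent.TW56.LocQ.UniOut
import Fermat.Agent.TW56.LocQ.ZCH1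
import Fermat.Agent.TW56.LocQ.ZCyc

set_option autoImplicit false

namespace Fermat.Agent.TW56.LocQ

theorem all_ZCyc : Stmt_ZCyc := stmt_ZCyc stmt_H1mu stmt_ZCH1

theorem all_OrdAbs : Stmt_OrdAbs := stmt_OrdAbs stmt_NilConj stmt_ConjZ stmt_OrdTri

theorem all_QLev : Stmt_QLev := stmt_QLev stmt_FinBound (stmt_QAbs stmt_MatN)

theorem all_UniLev : Stmt_UniLev := stmt_UniLev stmt_FinBound (stmt_UniAbs stmt_MatN)

theorem all_TameQ : Stmt_TameQ := stmt_TameQ (stmt_InAbs stmt_Dense) stmt_InLift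

/-- LOCQ-O. -/
theorem all_LocOrd : TW56.Stmt_LocOrd := locOrd stmt_Dict all_ZCyc stmt_Tensor all_OrdAbs

/-- LOCQ-Q. -/
theorem all_LocQ : TW56.Stmt_LocQ := locQ stmt_Dict all_QLev all_TameQ

/-- LOCQ-U. -/
theorem all_LocUnip : TW56.Stmt_LocUnip := locUnip stmt_Dict all_UniLev all_TameQ

end Fermat.Agent.TW56.LocQ
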