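/-
TEAM TW56 -> S56, block [LOCQ].  GLUE LEMMAS (helper74) for the outputs G1, G2, G3 of `LocQ/Interface.lean` v2:
`Glue_charP`, `Glue_place_lies`, `Glue_decomp_range`, `Glue_inertia_range`, `Glue_cyclo`, `Glue_nil_ne`,
`Glue_nil_sq`, `Glue_nil_mulVec`, `Glue_shape`.
-/
import Fermat.Agent.TW56.LocQ.Interface
import Fermat.Agent.TW56.Top.Asm
import Fermat.Agent.CFT.LocalBridge
import Fermat.Agent.CFT.CycloBridge

set_option autoImplicit false

noncomputable section

namespace Fermat.Agent.TW56.LocQ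

open _root_.Fermat.Agent.CFT.Top _root_.Fermat.Agent.CFT.Local _root_.Fermat.Agent.CFT.Pos ExtCitation
  Polynomial Matrix
open _root_.Fermat.Agent.S53 (M2)
open _root_.Fermat.Agent.TW56.Flat (IsCoc0 IsCocChar cob conjRep)

/-- `CharP k p` from the `ZMod p`-algebra structure. -/
theorem Glue_charP (p : ℕ) [Fact p.Prime] (k : Type) [Field k] [Algebra (ZMod p) k] : CharP k p :=
  charP_of_injective_algebraMap (algebraMap (ZMod p) k).injective p

theorem Glue_place_lies (q : Nat.Primes) : (primeLocalPlace q).LiesOverPrime (q : ℕ) := by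
  letI : Fact (q : ℕ).Prime := ⟨q.2⟩
  exact _root_.Fermat.Agent.CFT.padicPlace_liesOverPrime (q : ℕ)

/-- every element of the decomposition group comes from the local Galois group. -/
theorem Glue_decomp_range (v : Nat.Primes) (σ : GQ)
    (hσ : σ ∈ (primeLocalPlace v).decompositionSubgroup ℚ) :
    ∃ g : primeLocalGaloisGroup v, primeLocalToGlobal v g = σ := by
  letI : Fact (v : ℕ).Prime := ⟨v.2⟩
  have h : σ ∈ (localGaloisToGlobal (v : ℕ)).range := by
    rw [_root_.Fermat.Agent.CFT.range_localGaloisToGlobal]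
    exact hσ
  exact h

theorem Glue_inertia_range (v : Nat.Primes) (σ : GQ)
    (hσ : σ ∈ (primeLocalPlace v).inertiaSubgroupIn ℚ) :
    ∃ g : primeLocalGaloisGroup v, primeLocalToGlobal v g = σ := by
  apply Glue_decomp_range
  obtain ⟨x, _, rfl⟩ := hσ
  exact x.2

/-- `(a : k)` is the cyclotomic character. -/
theorem Glue_cyclo (p : ℕ) [Fact p.Prime] (σ : GQ) (a : ℕ)
    (ha : ∀ μ : AlgebraicClosure ℚ, μ ^ p = 1 → σ μ = μ ^ a) :
    ((cycloChar p σ : (ZMod p)ˣ) : ZMod p) = (a : ZMod p) := by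
  have : NeZero p := ⟨(Fact.out : p.Prime).ne_zero⟩
  have h1 : Fact (1 < p) := ⟨(Fact.out : p.Prime).one_lt⟩
  have := modularCyclotomicCharacter.unique (L := AlgebraicClosure ℚ) (card_rootsOfUnity_eq_self p)
    (σ : AlgebraicClosure ℚ ≃+* AlgebraicClosure ℚ) (c := (a : ZMod p)) (fun t ht => by
      have ht' : (t : AlgebraicClosure ℚ) ^ p = 1 := by
        have := (mem_rootsOfUnity _ _).mp ht
        rw [← Units.val_pow_eq_pow_val, this, Units.val_one]
      rw [ZMod.val_natCast, ← pow_eq_pow_mod a ht']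
      exact ha _ ht')
  exact this.symm

theorem Glue_nil_ne {k : Type} [Field k] {ℓ : Fin 2 → k} (h : ℓ ≠ 0) : nil ℓ ≠ 0 := by
  intro h0
  apply h
  have e00 := congrFun (congrFun h0 0) 0
  have e01 := congrFun (congrFun h0 0) 1
  have e10 := congrFun (congrFun h0 1) 0
  have e11 := congrFun (congrFun h0 1) 1
  simp [nil, Matrix.vecMulVec] at e00 e01 e10 e11
  funext i
  fin_cases i
  · simpa using e01
  · simpa using e10

theorem Glue_nil_sq {k : Type} [Field k] (ℓ : Fin 2 → k) : nil ℓ * nil ℓ = 0 := by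
  ext i j
  fin_cases i <;> fin_cases j <;>
    simp [nil, Matrix.vecMulVec, Matrix.mul_apply, Fin.sum_univ_two] <;> ring

theorem Glue_nil_mulVec {k : Type} [Field k] (ℓ w : Fin 2 → k) :
    nil ℓ *ᵥ w = (ℓ 0 * w 1 - ℓ 1 * w 0) • ℓ := by
  funext i
  fin_cases i <;>
    simp [nil, Matrix.vecMulVec, Matrix.mulVec, dotProduct, Fin.sum_univ_two] <;> ring

theorem Glue_shape {k : Type} [Field k] (ℓ : Fin 2 → k) (R : M2 k) (z ω : k)
    (h1 : ∀ w : Fin 2 → k, ∃ t : k, R *ᵥ w - z • w = t • ℓ) (h2 : R *ᵥ ℓ = (ω * z) • ℓ) :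
    R * nil ℓ = ω • (nil ℓ * R) := by
  have key : ∀ w : Fin 2 → k, (R * nil ℓ) *ᵥ w = (ω • (nil ℓ * R)) *ᵥ w := by
    intro w
    obtain ⟨t, ht⟩ := h1 w
    have hw : R *ᵥ w = z • w + t • ℓ := by rw [← ht]; abel
    rw [← Matrix.mulVec_mulVec, Glue_nil_mulVec, Matrix.mulVec_smul, h2, Matrix.smul_mulVec,
      ← Matrix.mulVec_mulVec, hw, Glue_nil_mulVec]
    funext i
    simp only [Pi.smul_apply, Pi.add_apply, smul_eq_mul]
    ring
  ext i j
  have := congrFun (key (Pi.single j 1)) i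
  simpa using this

end Fermat.Agent.TW56.LocQ

end
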