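/-
TEAM TW56 -> S56, block [LOCQ] (architect helper88).  A1 : counts of `2 × 2` matrices.
-/
import Fermat.Agent.TW56.LocQ.Interface

set_option autoImplicit false

noncomputable section

namespace Fermat.Agent.TW56.LocQ

open Polynomial Matrix
open _root_.Fermat.Agent.S53 (M2)

section

variable {k : Type} [Field k]

omit [Field k] in
theorem MatN_ext (m m' : M2 k) (h00 : m 0 0 = m' 0 0) (h01 : m 0 1 = m' 0 1)
    (h10 : m 1 0 = m' 1 0) (h11 : m 1 1 = m' 1 1) : m = m' := by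
  ext i j
  fin_cases i <;> fin_cases j <;> first | exact h00 | exact h01 | exact h10 | exact h11

/-- the entries of a nilpotent matrix. -/
theorem MatN_nil (N : M2 k) (h0 : N ≠ 0) (h2 : N * N = 0) :
    N 1 1 = - N 0 0 ∧ (N 0 1 ≠ 0 ∨ N 1 0 ≠ 0) := by
  have e00 := congrFun (congrFun h2 0) 0
  have e01 := congrFun (congrFun h2 0) 1
  have e10 := congrFun (congrFun h2 1) 0
  have e11 := congrFun (congrFun h2 1) 1
  simp only [Matrix.mul_apply, Fin.sum_univ_two, Matrix.zero_apply] at e00 e01 e10 e11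
  have ht : N 0 0 + N 1 1 = 0 := by
    by_contra ht
    have hb : N 0 1 = 0 := by
      have h : N 0 1 * (N 0 0 + N 1 1) = 0 := by linear_combination e01
      exact (mul_eq_zero.1 h).resolve_right ht
    have ha : N 0 0 = 0 := by
      rw [hb, zero_mul, add_zero] at e00
      exact mul_self_eq_zero.1 e00
    have hd : N 1 1 = 0 := by
      rw [hb, mul_zero, zero_add] at e11
      exact mul_self_eq_zero.1 e11
    exact ht (by rw [ha, hd, add_zero])
  refine ⟨by linear_combination ht, ?_⟩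
  by_contra hcon
  push Not at hcon
  obtain ⟨hb, hc⟩ := hcon
  have ha : N 0 0 = 0 := by
    rw [hb, zero_mul, add_zero] at e00
    exact mul_self_eq_zero.1 e00
  have hd : N 1 1 = 0 := by
    rw [hb, mul_zero, zero_add] at e11
    exact mul_self_eq_zero.1 e11
  exact h0 (MatN_ext _ _ ha hb hc hd)

/-- the three equations of `m R = R m`, `tr m = 0`. -/
theorem MatN_comm (R m : M2 k) (ht : m.trace = 0) (hc : m * R = R * m) :
    m 1 1 = - m 0 0 ∧ R 1 0 * m 0 1 = R 0 1 * m 1 0 ∧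
      2 * R 0 1 * m 0 0 = (R 0 0 - R 1 1) * m 0 1 ∧ 2 * R 1 0 * m 0 0 = (R 0 0 - R 1 1) * m 1 0 := by
  have e00 := congrFun (congrFun hc 0) 0
  have e01 := congrFun (congrFun hc 0) 1
  have e10 := congrFun (congrFun hc 1) 0
  simp only [Matrix.mul_apply, Fin.sum_univ_two] at e00 e01 e10
  rw [Matrix.trace_fin_two] at ht
  have h11 : m 1 1 = - m 0 0 := by linear_combination ht
  rw [h11] at e01 e10
  refine ⟨h11, ?_, ?_, ?_⟩
  · linear_combination e00
  · linear_combination e01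
  · linear_combination -e10

end

section Card

variable {k : Type} [Field k] [Finite k]

/-- the trace zero commutant of a "regular" matrix. -/
theorem MatN_card_comm (R : M2 k)
    (hw : R 0 0 - R 1 1 ≠ 0 ∨ 2 * R 0 1 ≠ 0 ∨ 2 * R 1 0 ≠ 0) :
    Nat.card {m : M2 k // m.trace = 0 ∧ m * R = R * m} ≤ Nat.card k := by
  rcases hw with hw | hw | hw
  · refine Nat.card_le_card_of_injective (fun m => m.1 0 0) ?_
    rintro ⟨m, ht, hc⟩ ⟨m', ht', hc'⟩ h
    obtain ⟨h11, -, h2, h3⟩ := MatN_comm R m ht hc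
    obtain ⟨h11', -, h2', h3'⟩ := MatN_comm R m' ht' hc'
    have h : m 0 0 = m' 0 0 := h
    refine Subtype.ext (MatN_ext m m' h ?_ ?_ (by rw [h11, h11', h]))
    · exact mul_left_cancel₀ hw (by rw [← h2, ← h2', h])
    · exact mul_left_cancel₀ hw (by rw [← h3, ← h3', h])
  · refine Nat.card_le_card_of_injective (fun m => m.1 0 1) ?_
    rintro ⟨m, ht, hc⟩ ⟨m', ht', hc'⟩ h
    obtain ⟨h11, h1, h2, -⟩ := MatN_comm R m ht hc
    obtain ⟨h11', h1', h2', -⟩ := MatN_comm R m' ht' hc'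
    have h : m 0 1 = m' 0 1 := h
    have hb : R 0 1 ≠ 0 := right_ne_zero_of_mul hw
    have h00 : m 0 0 = m' 0 0 := mul_left_cancel₀ hw (by rw [h2, h2', h])
    refine Subtype.ext (MatN_ext m m' h00 h ?_ (by rw [h11, h11', h00]))
    exact mul_left_cancel₀ hb (by rw [← h1, ← h1', h])
  · refine Nat.card_le_card_of_injective (fun m => m.1 1 0) ?_
    rintro ⟨m, ht, hc⟩ ⟨m', ht', hc'⟩ h
    obtain ⟨h11, h1, -, h3⟩ := MatN_comm R m ht hc
    obtain ⟨h11', h1', -, h3'⟩ := MatN_comm R m' ht' hc'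
    have h : m 1 0 = m' 1 0 := h
    have hb : R 1 0 ≠ 0 := right_ne_zero_of_mul hw
    have h00 : m 0 0 = m' 0 0 := mul_left_cancel₀ hw (by rw [h3, h3', h])
    refine Subtype.ext (MatN_ext m m' h00 ?_ h (by rw [h11, h11', h00]))
    exact mul_left_cancel₀ hb (by rw [h1, h1', h])

theorem MatN_card_tr (N : M2 k) (h0 : N ≠ 0) (h2 : N * N = 0) :
    Nat.card {m : M2 k // m.trace = 0 ∧ (m * N).trace = 0} ≤ Nat.card k ^ 2 := by
  obtain ⟨hd, hbc⟩ := MatN_nil N h0 h2
  have key : ∀ m : M2 k, m.trace = 0 → (m * N).trace = 0 →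
      m 1 1 = - m 0 0 ∧ 2 * N 0 0 * m 0 0 + N 1 0 * m 0 1 + N 0 1 * m 1 0 = 0 := by
    intro m ht htN
    rw [Matrix.trace_fin_two] at ht htN
    simp only [Matrix.mul_apply, Fin.sum_univ_two] at htN
    have h11 : m 1 1 = - m 0 0 := by linear_combination ht
    rw [h11, hd] at htN
    exact ⟨h11, by linear_combination htN⟩
  rw [pow_two, ← Nat.card_prod]
  rcases hbc with hb | hc
  · refine Nat.card_le_card_of_injective (fun m => (m.1 0 0, m.1 0 1)) ?_
    rintro ⟨m, ht, hN⟩ ⟨m', ht', hN'⟩ h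
    obtain ⟨h11, h1⟩ := key m ht hN
    obtain ⟨h11', h1'⟩ := key m' ht' hN'
    have ha : m 0 0 = m' 0 0 := congrArg Prod.fst h
    have hb' : m 0 1 = m' 0 1 := congrArg Prod.snd h
    refine Subtype.ext (MatN_ext m m' ha hb' ?_ (by rw [h11, h11', ha]))
    refine mul_left_cancel₀ hb ?_
    rw [ha, hb'] at h1
    linear_combination h1 - h1'
  · refine Nat.card_le_card_of_injective (fun m => (m.1 0 0, m.1 1 0)) ?_
    rintro ⟨m, ht, hN⟩ ⟨m', ht', hN'⟩ h
    obtain ⟨h11, h1⟩ := key m ht hN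
    obtain ⟨h11', h1'⟩ := key m' ht' hN'
    have ha : m 0 0 = m' 0 0 := congrArg Prod.fst h
    have hb' : m 1 0 = m' 1 0 := congrArg Prod.snd h
    refine Subtype.ext (MatN_ext m m' ha ?_ hb' (by rw [h11, h11', ha]))
    refine mul_left_cancel₀ hc ?_
    rw [ha, hb'] at h1
    linear_combination h1 - h1'

theorem MatN_card_sl2 : Nat.card {m : M2 k // m.trace = 0} ≤ Nat.card k ^ 3 := by
  have e : Nat.card k ^ 3 = Nat.card (k × k × k) := by
    rw [Nat.card_prod, Nat.card_prod]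
    ring
  rw [e]
  refine Nat.card_le_card_of_injective (fun m => (m.1 0 0, m.1 0 1, m.1 1 0)) ?_
  rintro ⟨m, ht⟩ ⟨m', ht'⟩ h
  rw [Matrix.trace_fin_two] at ht ht'
  have ha : m 0 0 = m' 0 0 := congrArg Prod.fst h
  have hb : m 0 1 = m' 0 1 := congrArg (fun x => x.2.1) h
  have hc : m 1 0 = m' 1 0 := congrArg (fun x => x.2.2) h
  exact Subtype.ext (MatN_ext m m' ha hb hc (by linear_combination ht - ht' - ha))

end Card

theorem MatN_reg {k : Type} [Field k] (R : M2 k) (α β : k) (hαβ : α ≠ β)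
    (hR : R.charpoly = (X - C α) * (X - C β)) :
    R 0 0 - R 1 1 ≠ 0 ∨ 2 * R 0 1 ≠ 0 ∨ 2 * R 1 0 ≠ 0 := by
  rw [Matrix.charpoly_fin_two] at hR
  have e1 := congrArg (eval α) hR
  have e2 := congrArg (eval β) hR
  simp only [eval_add, eval_sub, eval_mul, eval_pow, eval_X, eval_C, sub_self, zero_mul,
    mul_zero] at e1 e2
  rw [Matrix.trace_fin_two, Matrix.det_fin_two] at e1 e2
  have hne : α - β ≠ 0 := sub_ne_zero.2 hαβ
  have ht : R 0 0 + R 1 1 = α + β := by
    refine mul_left_cancel₀ hne ?_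
    linear_combination e2 - e1
  by_contra hcon
  push Not at hcon
  obtain ⟨h1, h2, h3⟩ := hcon
  apply hne
  have : (α - β) * (α - β) = 0 := by
    have hd : R 0 0 * R 1 1 - R 0 1 * R 1 0 = α * β := by
      linear_combination e1 + α * ht
    linear_combination (-(α + β) - (R 0 0 + R 1 1)) * ht + (R 0 0 - R 1 1) * h1 + 2 * R 1 0 * h2
      + 4 * hd
  exact mul_self_eq_zero.1 this

theorem stmt_MatN : Stmt_MatN := by
  intro k _ _
  refine ⟨fun N h0 h2 => ⟨MatN_card_tr N h0 h2, fun h => ?_⟩, fun R α β hαβ hR => ?_,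
    MatN_card_sl2⟩
  · refine MatN_card_comm N ?_
    rcases (MatN_nil N h0 h2).2 with hb | hc
    · exact Or.inr (Or.inl (mul_ne_zero h hb))
    · exact Or.inr (Or.inr (mul_ne_zero h hc))
  · exact MatN_card_comm R (MatN_reg R α β hαβ hR)

end Fermat.Agent.TW56.LocQ

end
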