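/-
TEAM TW56 -> S56, block [LOCQ], package LOCQ-A9 : raw cocycles with values in `𝔽_p(χ)` and `H¹`
(`Stmt_ZCH1`).
-/
import Fermat.Agent.TW56.LocQ.Interface

set_option autoImplicit false

noncomputable section

namespace Fermat.Agent.TW56.LocQ

open _root_.Fermat.Agent.CFT.Top _root_.Fermat.Agent.CFT.Local _root_.Fermat.Agent.CFT.Pos ExtCitation
  Polynomial Matrix
open _root_.Fermat.Agent.S53 (M2)
open _root_.Fermat.Agent.TW56.Flat (IsCoc0 IsCocChar cob conjRep)

section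

variable {p : ℕ} [Fact p.Prime] {G : Type} [Group G] {𝒰 : LevelSys G} {χ : G →* (ZMod p)ˣ}
  {N : Rep.{0} (ZMod p) G}

lemma ZCH1_mem_Z1 (hρ : ∀ (g : G) (m : N), N.ρ g m = ((χ g : (ZMod p)ˣ) : ZMod p) • m) (n₀ : N)
    {f : G → ZMod p} (hf : f ∈ ZC 𝒰 χ) : (fun g => f g • n₀) ∈ Z1 𝒰 N := by
  obtain ⟨hc, U, hU, hl⟩ := hf
  have hnor := 𝒰.normal U hU
  have h1 : f 1 = 0 := by
    have := hc 1 1
    simpa using this
  rw [mem_Z1, mem_C1]
  refine ⟨fun g h => ?_, U, hU, fun g u hu => ?_, fun g u hu => ?_⟩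
  · show f (g * h) • n₀ = N.ρ g (f h • n₀) + f g • n₀
    rw [hρ, hc g h, add_smul, mul_smul, add_comm]
  · show f (g * u) • n₀ = f g • n₀
    rw [hl g u hu]
  · show N.ρ u (f g • n₀) = f g • n₀
    have hu0 : f u = 0 := by
      have := hl 1 u hu
      rwa [one_mul, h1] at this
    have e1 : f (u * g) = ((χ u : (ZMod p)ˣ) : ZMod p) * f g := by rw [hc u g, hu0, zero_add]
    have e2 : f (u * g) = f g := by
      have hmem : g⁻¹ * u * g ∈ U := by
        have := hnor.conj_mem u hu g⁻¹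
        simpa using this
      have := hl g _ hmem
      rwa [show g * (g⁻¹ * u * g) = u * g by group] at this
    rw [hρ, ← mul_smul, ← e1, e2]

lemma ZCH1_card_Z1 (hN : IsMu χ N) : Nat.card (ZC 𝒰 χ) = Nat.card (Z1 𝒰 N) := by
  obtain ⟨hrk, hρ⟩ := hN
  obtain ⟨n₀, hn₀, hspan⟩ := finrank_eq_one_iff'.1 hrk
  have hinj : Function.Injective (fun a : ZMod p => a • n₀) := smul_left_injective _ hn₀
  refine Nat.card_congr (Equiv.ofBijective
    (fun f : ZC 𝒰 χ => (⟨fun g => f.1 g • n₀, ZCH1_mem_Z1 hρ n₀ f.2⟩ : Z1 𝒰 N)) ⟨?_, ?_⟩)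
  · intro f f' h
    apply Subtype.ext
    funext g
    have := congrFun (congrArg Subtype.val h) g
    exact hinj this
  · rintro ⟨F, hF⟩
    choose c hc using hspan
    rw [mem_Z1, mem_C1] at hF
    obtain ⟨hcoc, U, hU, hl, -⟩ := hF
    refine ⟨⟨fun g => c (F g), ⟨fun σ τ => ?_, U, hU, fun g u hu => ?_⟩⟩, ?_⟩
    · apply hinj
      show c (F (σ * τ)) • n₀ = (c (F σ) + ((χ σ : (ZMod p)ˣ) : ZMod p) * c (F τ)) • n₀
      rw [hc, add_smul, mul_smul, hc, hc, hcoc, hρ, add_comm]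
    · show c (F (g * u)) = c (F g)
      rw [hl g u hu]
    · apply Subtype.ext
      funext g
      exact hc (F g)

end

theorem stmt_ZCH1 : Stmt_ZCH1 := by
  intro p _ G _ 𝒰 χ N hN hfin
  have hcard := ZCH1_card_Z1 (𝒰 := 𝒰) hN
  obtain ⟨hrk, hρ⟩ := hN
  obtain ⟨n₀, hn₀, hspan⟩ := finrank_eq_one_iff'.1 hrk
  have hsurj : Function.Surjective (fun a : ZMod p => a • n₀) := hspan
  have hNfin : Finite N := Finite.of_surjective _ hsurj
  have hNcard : Nat.card N ≤ p := by
    have := Nat.card_le_card_of_surjective _ hsurj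
    simpa [Nat.card_zmod] using this
  set K := LinearMap.ker (cls1 𝒰 N) with hK
  -- the kernel injects into `N`
  have hex : ∀ f : K, ∃ m : N, ∀ g, f.1.1 g = N.ρ g m - m := by
    intro f
    obtain ⟨m, -, hm⟩ := (cls1_eq_zero_iff 𝒰 N f.1).1 f.2
    exact ⟨m, hm⟩
  choose mm hmm using hex
  have hmminj : Function.Injective mm := by
    intro f f' h
    apply Subtype.ext
    apply Subtype.ext
    funext g
    rw [hmm f g, hmm f' g, h]
  have hKfin : Finite K := Finite.of_injective mm hmminj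
  have hKcard : Nat.card K ≤ p := (Nat.card_le_card_of_injective mm hmminj).trans hNcard
  have hquot : Nat.card (Z1 𝒰 N ⧸ K) = Nat.card (Hlc 𝒰 N 1) :=
    Nat.card_congr ((cls1 𝒰 N).quotKerEquivOfSurjective (cls1_surjective 𝒰 N)).toEquiv
  have hmul : Nat.card (Z1 𝒰 N) = Nat.card K * Nat.card (Hlc 𝒰 N 1) := by
    rw [← hquot]
    exact Submodule.card_eq_card_quotient_mul_card K
  have hpos : Nat.card (ZC 𝒰 χ) ≠ 0 := by
    rw [hcard, hmul]
    exact Nat.mul_ne_zero Nat.card_pos.ne' Nat.card_pos.ne'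
  refine ⟨Nat.finite_of_card_ne_zero hpos, ?_, ?_⟩
  · rw [hcard, hmul, mul_comm]
    exact Nat.mul_le_mul_left _ hKcard
  · intro hχ
    have hKone : Nat.card K = 1 := by
      have : Subsingleton K := by
        refine ⟨fun f f' => ?_⟩
        apply Subtype.ext
        apply Subtype.ext
        funext g
        rw [hmm f g, hmm f' g, hρ, hρ, hχ]
        simp
      exact Nat.card_unique
    rw [hcard, hmul, hKone, one_mul]

end Fermat.Agent.TW56.LocQ

end
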